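import Fermat.Agent.LTEnd.Final

/-!
# END, with the primes `ℓ = N(ϖ)`, `ϖ ≡ 1` modulo `N`
-/

set_option autoImplicit false

noncomputable section

namespace Fermat.Agent.LTEnd

open Matrix FLT.ExplicitLift EisensteinWeightOne CongruenceSubgroup ModularFormClass
open Fermat.Agent.Neb Fermat.Agent.DS Fermat.Agent.IntStr WeierstrassCurve
open scoped MatrixGroups

local notation "Qb" => AlgebraicClosure ℚ
local notation "Γℚ" => (AlgebraicClosure ℚ ≃ₐ[ℚ] AlgebraicClosure ℚ)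
local notation "G3" => GL (Fin 2) (ZMod 3)
local notation "M3" => Matrix (Fin 2) (Fin 2) (ZMod 3)
local notation "MZ" => Matrix (Fin 2) (Fin 2) (ℤ√(-2))

section Q8

/-- `det = 1`, and scalar or of trace zero -/
def Q8c (a b c d : ZMod 3) : Prop :=
  a * d - b * c = 1 ∧ ((b = 0 ∧ c = 0 ∧ a = d) ∨ a + d = 0)

instance (a b c d : ZMod 3) : Decidable (Q8c a b c d) := by unfold Q8c; infer_instance

theorem q8_mul : ∀ a b c d : ZMod 3, Q8c a b c d → ∀ x y z w : ZMod 3, Q8c x y z w →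
    Q8c (a * x + b * z) (a * y + b * w) (c * x + d * z) (c * y + d * w) := by
  decide

/-- the quaternion subgroup of `GL₂(𝔽₃)` -/
def Q8 : Subgroup G3 where
  carrier := {g | Q8c ((g : M3) 0 0) ((g : M3) 0 1) ((g : M3) 1 0) ((g : M3) 1 1)}
  mul_mem' {g h} hg hh := by
    have h1 := q8_mul _ _ _ _ hg _ _ _ _ hh
    change Q8c (((g * h : G3) : M3) 0 0) (((g * h : G3) : M3) 0 1) (((g * h : G3) : M3) 1 0)
      (((g * h : G3) : M3) 1 1)
    rw [Units.val_mul]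
    simpa only [Matrix.mul_apply, Fin.sum_univ_two] using h1
  one_mem' := by
    change Q8c (((1 : G3) : M3) 0 0) (((1 : G3) : M3) 0 1) (((1 : G3) : M3) 1 0)
      (((1 : G3) : M3) 1 1)
    rw [Units.val_one]
    simp only [Matrix.one_apply_eq, ne_eq, zero_ne_one, not_false_eq_true, Matrix.one_apply_ne,
      one_ne_zero]
    decide
  inv_mem' {g} hg := by
    obtain ⟨h1, h2⟩ := hg
    have hdet : (g : M3).det = 1 := by rw [Matrix.det_fin_two]; exact h1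
    change Q8c (((g⁻¹ : G3) : M3) 0 0) (((g⁻¹ : G3) : M3) 0 1) (((g⁻¹ : G3) : M3) 1 0)
      (((g⁻¹ : G3) : M3) 1 1)
    rw [val_inv_eq, hdet, inv_one, one_smul, Matrix.adjugate_fin_two]
    simp only [Matrix.of_apply, Matrix.cons_val', Matrix.cons_val_zero, Matrix.cons_val_one,
      Matrix.cons_val_fin_one]
    refine ⟨by rw [← h1]; ring, ?_⟩
    rcases h2 with ⟨h3, h4, h5⟩ | h3
    · left; exact ⟨by rw [h3, neg_zero], by rw [h4, neg_zero], h5.symm⟩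
    · right; rw [← h3]; ring

theorem mem_Q8 (g : G3) : g ∈ Q8 ↔ (g : M3).det = 1 ∧
    (((g : M3) 0 1 = 0 ∧ (g : M3) 1 0 = 0 ∧ (g : M3) 0 0 = (g : M3) 1 1) ∨ (g : M3).trace = 0) := by
  rw [Matrix.det_fin_two, Matrix.trace_fin_two]
  exact Iff.rfl

/-- membership in `Q8` is invariant under conjugation -/
theorem q8_normal : Q8.Normal := by
  refine ⟨fun g hg x => ?_⟩
  rw [mem_Q8] at hg ⊢
  obtain ⟨h1, h2⟩ := hg
  have hx : Matrix.GeneralLinearGroup.det (x * g * x⁻¹) = Matrix.GeneralLinearGroup.det g := by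
    rw [map_mul, map_mul, map_inv, mul_inv_cancel_comm]
  refine ⟨(congrArg Units.val hx).trans h1, ?_⟩
  rcases h2 with ⟨h3, h4, h5⟩ | h3
  · left
    have hs : (g : M3) = ((g : M3) 0 0) • (1 : M3) := by
      ext i j
      fin_cases i <;> fin_cases j
      · simp
      · simpa using h3
      · simpa using h4
      · simpa using h5.symm
    have h6 : ((x * g * x⁻¹ : G3) : M3) = ((g : M3) 0 0) • (1 : M3) := by
      rw [Units.val_mul, Units.val_mul, hs, mul_smul_comm, mul_one, smul_mul_assoc,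
        ← Units.val_mul, mul_inv_cancel, Units.val_one]
      simp
    rw [h6]
    simp
  · right
    rw [Units.val_mul, Units.val_mul, Matrix.trace_mul_comm, ← mul_assoc, ← Units.val_mul,
      inv_mul_cancel, Units.val_one, one_mul]
    exact h3

/-- elements of `Q8` -/
theorem pow_four_of_mem_Q8 {g : G3} (hg : g ∈ Q8) : g ^ 4 = 1 := by
  have key : ∀ a b c d : ZMod 3, Q8c a b c d →
      ((a * a + b * c) * (a * a + b * c) + (a * b + b * d) * (c * a + d * c) = 1 ∧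
      (a * a + b * c) * (a * b + b * d) + (a * b + b * d) * (c * b + d * d) = 0 ∧
      (c * a + d * c) * (a * a + b * c) + (c * b + d * d) * (c * a + d * c) = 0 ∧
      (c * a + d * c) * (a * b + b * d) + (c * b + d * d) * (c * b + d * d) = 1) := by
    decide
  obtain ⟨h1, h2, h3, h4⟩ := key _ _ _ _ hg
  apply Units.ext
  have e : g ^ 4 = (g * g) * (g * g) := by rw [← sq, ← sq, ← pow_mul]
  rw [e, Units.val_mul, Units.val_mul, Units.val_one]
  ext i j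
  fin_cases i <;> fin_cases j <;>
    simp only [Fin.zero_eta, Fin.mk_one, Fin.isValue, Matrix.mul_apply, Fin.sum_univ_two]
  · simpa using h1
  · simpa using h2
  · simpa using h3
  · simpa using h4

end Q8

/-- the output of the CM block (`LT/NT/CM.lean`) -/
def CMLevel : Prop := ∀ (N : ℕ), 0 < N → ∃ U : Subgroup Γℚ, U.Normal ∧ IsOpen (U : Set Γℚ) ∧
  (∀ σ ∈ U, modThreeCyclotomicChar σ = 1) ∧
  (∀ a b, modThreeCyclotomicChar a = 1 → modThreeCyclotomicChar b = 1 →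
    a * b * a⁻¹ * b⁻¹ ∈ U) ∧
  ∃ B : ℕ, ∀ p : ℕ, p.Prime → B < p → ∀ A : ValuationSubring (AlgebraicClosure ℚ),
    A.LiesOverPrime p → ∀ φ, A.IsFrobeniusAt φ p → φ ∈ U → p ≡ 1 [MOD N] ∧
      ∃ x y : ℤ, x ^ 2 - x * y + y ^ 2 = p ∧ (N : ℤ) ∣ x - 1 ∧ (N : ℤ) ∣ y

/-- an element of `SL₂(𝔽₃)` -/
def mk3 (a b c d : ZMod 3) (h : a * d - b * c ≠ 0) : G3 :=
  Matrix.GeneralLinearGroup.mkOfDetNeZero !![a, b; c, d] (by rwa [Matrix.det_fin_two_of])

/-- **END**, with the primes `ℓ = N(ϖ)`, `ϖ ≡ 1` modulo `N`, split completely in `E`. -/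
theorem s47_of_norm (hCM : CMLevel)
    (ρ : Γℚ →* GL (Fin 2) (ZMod 3)) (hρ : Continuous ρ) (hsurj : Function.Surjective ρ)
    (hdet : ∀ σ : Γℚ, Matrix.GeneralLinearGroup.det (ρ σ) = modThreeCyclotomicChar σ)
    (Ψ : GL (Fin 2) (ZMod 3) →* GL (Fin 2) (ℤ√(-2)))
    (hΨ : ∀ g, Matrix.GeneralLinearGroup.map red (Ψ g) = g)
    (ι : ℤ√(-2) →+* ℂ) {M : ℕ} [NeZero M] (f : CuspForm (Gamma1 M) 1) (hf : f ≠ 0) (N B : ℕ)
    (hN : 0 < N)
    (hT : ∀ ℓ : ℕ, ℓ.Prime → B < ℓ → (ℓ : ZMod M) = 1 → ∀ x y : ℤ, x ^ 2 - x * y + y ^ 2 = ℓ →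
      (N : ℤ) ∣ x - 1 → (N : ℤ) ∣ y → ∀ A : ValuationSubring Qb, A.LiesOverPrime ℓ →
      ∀ φ : Γℚ, A.IsFrobeniusAt φ ℓ → ρ φ ∈ Q8 → ∀ n : ℕ,
      qCoeff f (ℓ * n) + (if ℓ ∣ n then qCoeff f (n / ℓ) else 0) =
        ι (Ψ (ρ φ) : Matrix (Fin 2) (Fin 2) (ℤ√(-2))).trace * qCoeff f n) :
    ∃ (N : ℕ) (_ : NeZero N) (b : ℕ → ℤ√(-2)),
      FormalHecke.IsEigensystem
        (fun ℓ => if ℓ ∣ N then 0 else ((chiNegThree ℓ : ℤ) : ℤ√(-2))) b ∧
      CuspForm.IsWeightOneChiNegThreeRealized N b ∧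
      ∀ p : ℕ, p.Prime → ¬ p ∣ 3 * N →
        ∀ A : ValuationSubring (AlgebraicClosure ℚ), A.LiesOverPrime p →
          ∀ σ : Γℚ, A.IsFrobeniusAt σ p →
            b p = ((Ψ (ρ σ) : GL (Fin 2) (ℤ√(-2))) : Matrix (Fin 2) (Fin 2) (ℤ√(-2))).trace := by
  obtain ⟨U0, hU0n, hU0o, -, hcomm, B0, hB0⟩ := hCM N hN
  have := q8_normal
  let U : Subgroup Γℚ := U0 ⊓ Q8.comap ρ
  have hUn : U.Normal := Subgroup.normal_inf_normal _ _
  have hker : IsOpen ((Q8.comap ρ : Subgroup Γℚ) : Set Γℚ) :=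
    (isOpen_discrete (Q8 : Set G3)).preimage hρ
  have hUo : IsOpen (U : Set Γℚ) := hU0o.inter hker
  refine s47_of_weightOne ρ hρ hsurj hdet Ψ hΨ ι U hUo ?_ f hf (max B B0) ?_
  · obtain ⟨a, ha⟩ := hsurj (mk3 1 1 0 1 (by decide))
    obtain ⟨b, hb⟩ := hsurj (mk3 0 (-1) 1 0 (by decide))
    have ha1 : modThreeCyclotomicChar a = 1 := by
      rw [← hdet, ha]
      apply Units.ext
      change (!![(1 : ZMod 3), 1; 0, 1]).det = 1
      rw [Matrix.det_fin_two_of]; decide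
    have hb1 : modThreeCyclotomicChar b = 1 := by
      rw [← hdet, hb]
      apply Units.ext
      change (!![(0 : ZMod 3), -1; 1, 0]).det = 1
      rw [Matrix.det_fin_two_of]; decide
    have hmat : ((ρ (a * b * a⁻¹ * b⁻¹) : G3) : M3) = !![-1, 1; 1, 1] := by
      have h1 : ρ (a * b * a⁻¹ * b⁻¹) = ρ a * ρ b * (ρ a)⁻¹ * (ρ b)⁻¹ := by
        simp only [map_mul, map_inv]
      rw [h1, ha, hb, Units.val_mul, Units.val_mul, Units.val_mul, val_inv_eq, val_inv_eq]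
      change !![(1 : ZMod 3), 1; 0, 1] * !![(0 : ZMod 3), -1; 1, 0] *
        ((!![(1 : ZMod 3), 1; 0, 1]).det⁻¹ • (!![(1 : ZMod 3), 1; 0, 1]).adjugate) *
        ((!![(0 : ZMod 3), -1; 1, 0]).det⁻¹ • (!![(0 : ZMod 3), -1; 1, 0]).adjugate) = _
      rw [Matrix.det_fin_two_of, Matrix.det_fin_two_of, Matrix.adjugate_fin_two_of,
        Matrix.adjugate_fin_two_of]
      ext i j
      fin_cases i <;> fin_cases j <;> simp [Matrix.mul_apply, Fin.sum_univ_two] <;> decide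
    refine ⟨a * b * a⁻¹ * b⁻¹, ⟨hcomm a b ha1 hb1, ?_⟩, ?_, ?_⟩
    · change ρ (a * b * a⁻¹ * b⁻¹) ∈ Q8
      rw [mem_Q8, hmat, Matrix.det_fin_two_of, Matrix.trace_fin_two_of]
      exact ⟨by decide, Or.inr (by decide)⟩
    · intro h
      have h1 := hmat
      rw [h] at h1
      have h2 := congrFun (congrFun h1 0) 1
      simp at h2
    · intro h
      have h1 := hmat
      rw [h] at h1
      have h2 := congrFun (congrFun h1 0) 1
      simp at h2
  · intro ℓ hℓ hB h1 A hA φ hφU hφ n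
    obtain ⟨-, x, y, hxy, hx, hy⟩ := hB0 ℓ hℓ (lt_of_le_of_lt (le_max_right _ _) hB) A hA φ hφ
      hφU.1
    exact hT ℓ hℓ (lt_of_le_of_lt (le_max_left _ _) hB) h1 x y hxy hx hy A hA φ hφ hφU.2 n

end Fermat.Agent.LTEnd
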