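import Fermat.Statements.S47

/-!
# The group `GL₂(𝔽₃)` and its lift to `GL₂(ℤ[√-2])`
-/

set_option autoImplicit false

noncomputable section

namespace Fermat.Agent.LTEnd

open Matrix FLT.ExplicitLift

section F3

/-- nonscalar elements have a commutator of trace zero -/
theorem dec1 : ∀ a b c d : ZMod 3, a * d - b * c ≠ 0 → ¬ (b = 0 ∧ c = 0 ∧ a = d) →
    ∃ x y z w : ZMod 3, x * w - y * z ≠ 0 ∧
      ((a * x + b * z) * (d * w + b * z) - (a * y + b * w) * (c * w + a * z)
        - (c * x + d * z) * (d * y + b * x) + (c * y + d * w) * (c * y + a * x)) = 0 := by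
  decide

/-- elements of trace zero and determinant one anticommute with a conjugate -/
theorem dec2 : ∀ a b c : ZMod 3, -(a * a) - b * c = 1 →
    ∃ x y z w : ZMod 3, x * w - y * z ≠ 0 ∧
      ((a * x + b * z) * (a * w - b * z) + (a * y + b * w) * (c * w + a * z)
        + (c * x - a * z) * (-(a * y) + b * x) + (c * y - a * w) * (-(c * y) - a * x)) = 0 := by
  decide

local notation "G3" => GL (Fin 2) (ZMod 3)
local notation "M3" => Matrix (Fin 2) (Fin 2) (ZMod 3)

instance fact_prime_three' : Fact (Nat.Prime 3) := ⟨Nat.prime_three⟩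

theorem val_inv_eq (g : G3) : ((g⁻¹ : G3) : M3) = (g : M3).det⁻¹ • (g : M3).adjugate := by
  rw [Matrix.coe_units_inv, Matrix.inv_def, Ring.inverse_eq_inv']

theorem det_ne_zero' (g : G3) : (g : M3).det ≠ 0 := by
  have h1 := (Matrix.GeneralLinearGroup.det g).ne_zero
  exact h1

theorem exists_comm_trace_zero (g : G3) (hg : g ≠ 1) (hg' : g ≠ -1) :
    ∃ x : G3, ((g * x * g⁻¹ * x⁻¹ : G3) : M3).trace = 0 := by
  have hd := det_ne_zero' g
  rw [Matrix.det_fin_two] at hd
  have hns : ¬ ((g : M3) 0 1 = 0 ∧ (g : M3) 1 0 = 0 ∧ (g : M3) 0 0 = (g : M3) 1 1) := by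
    rintro ⟨h1, h2, h3⟩
    have key : ∀ a : ZMod 3, a = 0 ∨ a = 1 ∨ a = -1 := by decide
    rcases key ((g : M3) 0 0) with h | h | h
    · apply hd
      rw [h, h1]; ring
    · apply hg
      apply Units.ext
      ext i j
      fin_cases i <;> fin_cases j
      · simpa using h
      · simpa using h1
      · simpa using h2
      · simpa [← h3] using h
    · apply hg'
      apply Units.ext
      ext i j
      fin_cases i <;> fin_cases j
      · simpa using h
      · simpa using h1
      · simpa using h2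
      · simpa [← h3] using h
  obtain ⟨x, y, z, w, hdet, htr⟩ := dec1 _ _ _ _ hd hns
  refine ⟨Matrix.GeneralLinearGroup.mkOfDetNeZero !![x, y; z, w] (by
    rwa [Matrix.det_fin_two_of]), ?_⟩
  set X : G3 := Matrix.GeneralLinearGroup.mkOfDetNeZero !![x, y; z, w] (by
    rwa [Matrix.det_fin_two_of]) with hX
  have hXv : (X : M3) = !![x, y; z, w] := rfl
  rw [Units.val_mul, Units.val_mul, Units.val_mul, val_inv_eq, val_inv_eq, mul_smul_comm,
    mul_smul_comm, smul_mul_assoc, trace_smul, trace_smul]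
  have h1 : ((g : M3) * (X : M3) * (g : M3).adjugate * (X : M3).adjugate).trace = 0 := by
    rw [hXv, Matrix.adjugate_fin_two, Matrix.adjugate_fin_two_of]
    rw [Matrix.trace_fin_two]
    simp only [Matrix.mul_apply, Fin.sum_univ_two, Matrix.of_apply, Matrix.cons_val',
      Matrix.cons_val_zero, Matrix.cons_val_one, Matrix.cons_val_fin_one]
    rw [← htr]
    ring
  rw [h1, smul_zero, smul_zero]

theorem exists_anticomm (h : G3) (hdet : (h : M3).det = 1) (htr : (h : M3).trace = 0) :
    ∃ t : G3, (h : M3) * ((t * h * t⁻¹ : G3) : M3) = -(((t * h * t⁻¹ : G3) : M3) * (h : M3)) := by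
  have h11 : (h : M3) 1 1 = -(h : M3) 0 0 := by
    rw [Matrix.trace_fin_two] at htr
    linear_combination htr
  rw [Matrix.det_fin_two, h11] at hdet
  obtain ⟨x, y, z, w, hdx, htx⟩ := dec2 ((h : M3) 0 0) ((h : M3) 0 1) ((h : M3) 1 0) (by
    rw [← hdet]; ring)
  refine ⟨Matrix.GeneralLinearGroup.mkOfDetNeZero !![x, y; z, w] (by
    rwa [Matrix.det_fin_two_of]), ?_⟩
  set X : G3 := Matrix.GeneralLinearGroup.mkOfDetNeZero !![x, y; z, w] (by
    rwa [Matrix.det_fin_two_of]) with hX
  have hXv : (X : M3) = !![x, y; z, w] := rfl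
  rw [Units.val_mul, Units.val_mul, val_inv_eq, mul_smul_comm, mul_smul_comm, smul_mul_assoc,
    ← smul_neg]
  congr 1
  rw [hXv, Matrix.adjugate_fin_two_of]
  have hh : (h : M3) = !![(h : M3) 0 0, (h : M3) 0 1; (h : M3) 1 0, -(h : M3) 0 0] := by
    ext i j
    fin_cases i <;> fin_cases j
    · rfl
    · rfl
    · rfl
    · exact h11
  set a := (h : M3) 0 0
  set b := (h : M3) 0 1
  set c := (h : M3) 1 0
  rw [hh]
  simp only [Matrix.mul_fin_two, Matrix.neg_of, Matrix.neg_cons, Matrix.neg_empty,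
    EmbeddingLike.apply_eq_iff_eq]
  ext i j
  fin_cases i <;> fin_cases j <;>
    simp only [Fin.zero_eta, Fin.mk_one, Fin.isValue, Matrix.cons_val_zero, Matrix.cons_val_one,
      Matrix.cons_val', Matrix.cons_val_fin_one, Matrix.of_apply]
  · linear_combination htx
  · ring
  · ring
  · linear_combination htx

end F3

end Fermat.Agent.LTEnd
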