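import Mathlib

/-!
# Two-dimensional complex representations with equal traces on a normal subgroup
-/

set_option autoImplicit false

noncomputable section

namespace Fermat.Agent.LTEnd

open Matrix

local notation "M2" => Matrix (Fin 2) (Fin 2) ℂ

theorem eq_zero_of_trace_mul {X : M2} (h : ∀ Y : M2, (X * Y).trace = 0) : X = 0 := by
  rw [Matrix.ext_iff_trace_mul_right]
  intro Y
  rw [h Y, zero_mul, Matrix.trace_zero]

section Anti

variable {A B : M2} (hAB : A * B = -(B * A)) (hA : A.det ≠ 0) (hB : B.det ≠ 0)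

include hAB in
theorem trace_mul_of_anti : (A * B).trace = 0 := by
  have h1 : (A * B).trace = -(A * B).trace := by
    conv_lhs => rw [hAB, trace_neg, trace_mul_comm]
  linear_combination (1 / 2 : ℂ) * h1

include hAB hB in
theorem trace_of_anti : A.trace = 0 := by
  have hu : IsUnit B.det := isUnit_iff_ne_zero.mpr hB
  have h1 : A = -(B * A * B⁻¹) := by
    rw [← neg_mul, ← hAB, mul_assoc, Matrix.mul_nonsing_inv _ hu, mul_one]
  have h2 : A.trace = -A.trace := by
    conv_lhs => rw [h1, trace_neg, mul_assoc, trace_mul_comm, mul_assoc,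
      Matrix.nonsing_inv_mul _ hu, mul_one]
  linear_combination (1 / 2 : ℂ) * h2

theorem sq_of_trace_zero {A : M2} (h : A.trace = 0) : A * A = (-A.det) • (1 : M2) := by
  have h1 : A 1 1 = -A 0 0 := by
    rw [Matrix.trace_fin_two] at h
    linear_combination h
  ext i j
  fin_cases i <;> fin_cases j <;>
    simp [Matrix.mul_apply, Fin.sum_univ_two, Matrix.det_fin_two, h1] <;> ring

include hAB hA hB in
theorem linearIndependent_anti : LinearIndependent ℂ ![1, A, B, A * B] := by
  have hBA : B * A = -(A * B) := by rw [hAB, neg_neg]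
  have tA := trace_of_anti hAB hB
  have tB := trace_of_anti hBA hA
  have tAB := trace_mul_of_anti hAB
  have sA := sq_of_trace_zero tA
  have sB := sq_of_trace_zero tB
  rw [Fintype.linearIndependent_iff]
  intro g hg
  simp only [Fin.sum_univ_four, Matrix.cons_val_zero, Matrix.cons_val_one, Matrix.cons_val] at hg
  have tr1 : (1 : M2).trace = 2 := by simp
  have h0 : g 0 = 0 := by
    have h1 := congrArg Matrix.trace hg
    simp only [trace_add, trace_smul, tA, tB, tAB, tr1, smul_eq_mul, mul_zero, add_zero,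
      trace_zero] at h1
    linear_combination (1 / 2 : ℂ) * h1
  rw [h0, zero_smul, zero_add] at hg
  have h1 : g 1 = 0 := by
    have h2 := congrArg (fun X => (A * X).trace) hg
    simp only [mul_add, mul_smul_comm, ← mul_assoc, sA, smul_mul_assoc, one_mul, trace_add,
      trace_smul, tB, tAB, tr1, smul_eq_mul, mul_zero, add_zero, trace_zero] at h2
    have h3 : g 1 * A.det = 0 := by linear_combination (-1 / 2 : ℂ) * h2
    exact (mul_eq_zero.mp h3).resolve_right hA
  rw [h1, zero_smul, zero_add] at hg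
  have h2 : g 2 = 0 := by
    have h3 := congrArg (fun X => (X * B).trace) hg
    simp only [add_mul, smul_mul_assoc, mul_assoc, sB, mul_smul_comm, mul_one, trace_add,
      trace_smul, tA, tr1, smul_eq_mul, mul_zero, add_zero, zero_mul, trace_zero] at h3
    have h4 : g 2 * B.det = 0 := by linear_combination (-1 / 2 : ℂ) * h3
    exact (mul_eq_zero.mp h4).resolve_right hB
  rw [h2, zero_smul, zero_add] at hg
  have h3 : g 3 = 0 := by
    by_contra hne
    have h4 := (smul_eq_zero.mp hg).resolve_left hne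
    have h5 := congrArg Matrix.det h4
    rw [Matrix.det_mul] at h5
    simp at h5
    exact h5.elim hA hB
  intro i
  fin_cases i
  · exact h0
  · exact h1
  · exact h2
  · exact h3

/-- the basis `1, A, B, AB` -/
def antiBasis : Module.Basis (Fin 4) ℂ M2 :=
  basisOfLinearIndependentOfCardEqFinrank (linearIndependent_anti hAB hA hB) (by
    rw [Module.finrank_matrix]; simp)

theorem antiBasis_apply (i : Fin 4) : antiBasis hAB hA hB i = ![1, A, B, A * B] i := by
  rw [antiBasis, coe_basisOfLinearIndependentOfCardEqFinrank]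

end Anti

theorem trace_zero_of_basis {ι : Type*} (b : Module.Basis ι ℂ M2) {X : M2}
    (h : ∀ i, (X * b i).trace = 0) : X = 0 := by
  refine eq_zero_of_trace_mul fun Y => ?_
  let φ : M2 →ₗ[ℂ] ℂ := (Matrix.traceLinearMap (Fin 2) ℂ ℂ).comp (LinearMap.mulLeft ℂ X)
  have h1 : φ = 0 := b.ext fun i => h i
  exact LinearMap.congr_fun h1 Y

theorem eq_smul_one_of_commute {X : M2} (h : ∀ Y : M2, X * Y = Y * X) :
    ∃ c : ℂ, X = c • (1 : M2) := by
  refine ⟨X 0 0, ?_⟩
  have h1 := h (Matrix.single 0 1 1)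
  have h2 := h (Matrix.single 1 0 1)
  have e1 := congrFun (congrFun h1 0) 1
  have e2 := congrFun (congrFun h1 0) 0
  have e3 := congrFun (congrFun h2 0) 0
  have e4 := congrFun (congrFun h2 1) 0
  have e5 := congrFun (congrFun h1 1) 1
  simp [Matrix.mul_apply, Matrix.single] at e1 e2 e3 e4 e5
  ext i j
  fin_cases i <;> fin_cases j
  · simp
  · simpa using e3
  · simpa using e5
  · simpa using e4

theorem two_mul_det (X : M2) : 2 * X.det = X.trace ^ 2 - (X * X).trace := by
  rw [Matrix.det_fin_two, Matrix.trace_fin_two, Matrix.trace_fin_two]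
  simp [Matrix.mul_apply, Fin.sum_univ_two]
  ring

/-- **Part B**: if two representations have equal traces on the normal subgroup `U`, and the second
one has two anticommuting elements in the image of `U`, then they are twists of each other (at least
as far as trace and determinant are concerned). -/
theorem exists_twist {G : Type*} [Group G] (U : Subgroup G) [hU : U.Normal]
    (r1 r2 : G →* GL (Fin 2) ℂ)
    (htr : ∀ u ∈ U, (r1 u : M2).trace = (r2 u : M2).trace) {h h' : G} (hh : h ∈ U) (hh' : h' ∈ U)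
    (hanti : (r2 h : M2) * (r2 h' : M2) = -((r2 h' : M2) * (r2 h : M2))) :
    ∃ η : G →* ℂˣ, (∀ g, (r1 g : M2).trace = (η g : ℂ) * (r2 g : M2).trace) ∧
      (∀ g, (r1 g : M2).det = (η g : ℂ) ^ 2 * (r2 g : M2).det) ∧
      ∀ g, r1 g = 1 → r2 g = 1 → η g = 1 := by
  have hdet : ∀ (r : G →* GL (Fin 2) ℂ) (g : G), (r g : M2).det ≠ 0 := fun r g => by
    have h1 := (Matrix.GeneralLinearGroup.det (r g)).ne_zero
    exact h1
  let b := antiBasis hanti (hdet r2 h) (hdet r2 h')
  let v : Fin 4 → G := ![1, h, h', h * h']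
  have hv : ∀ i, v i ∈ U := by
    intro i
    fin_cases i
    · exact one_mem U
    · exact hh
    · exact hh'
    · exact mul_mem hh hh'
  have hb : ∀ i, b i = (r2 (v i) : M2) := by
    intro i
    change antiBasis _ _ _ i = _
    rw [antiBasis_apply]
    fin_cases i
    · change (1 : M2) = (r2 1 : M2)
      rw [map_one, Units.val_one]
    · rfl
    · rfl
    · change (r2 h : M2) * (r2 h' : M2) = (r2 (h * h') : M2)
      rw [map_mul, Units.val_mul]
  let L : M2 →ₗ[ℂ] M2 := b.constr ℂ fun i => (r1 (v i) : M2)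
  have hLb : ∀ i, L (b i) = (r1 (v i) : M2) := fun i => b.constr_basis ℂ _ i
  -- trace form
  have h1 : ∀ X j, (L X * (r1 (v j) : M2)).trace = (X * b j).trace := by
    intro X j
    let φ : M2 →ₗ[ℂ] ℂ := ((Matrix.traceLinearMap (Fin 2) ℂ ℂ).comp
      (LinearMap.mulRight ℂ (r1 (v j) : M2))).comp L
    let ψ : M2 →ₗ[ℂ] ℂ := (Matrix.traceLinearMap (Fin 2) ℂ ℂ).comp (LinearMap.mulRight ℂ (b j))
    have h2 : φ = ψ := b.ext fun i => by
      change (L (b i) * (r1 (v j) : M2)).trace = (b i * b j).trace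
      rw [hLb, hb, hb, ← Units.val_mul, ← map_mul, ← Units.val_mul, ← map_mul]
      exact htr _ (mul_mem (hv i) (hv j))
    exact LinearMap.congr_fun h2 X
  have hLinj : Function.Injective L := by
    rw [injective_iff_map_eq_zero]
    intro X hX
    refine trace_zero_of_basis b fun j => ?_
    rw [← h1, hX, zero_mul, trace_zero]
  have hLsurj : Function.Surjective L := LinearMap.surjective_of_injective hLinj
  let b1 : Module.Basis (Fin 4) ℂ M2 := b.map (LinearEquiv.ofBijective L ⟨hLinj, hLsurj⟩)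
  have hb1 : ∀ i, b1 i = (r1 (v i) : M2) := fun i => by
    rw [Module.Basis.map_apply]; exact hLb i
  have hLU : ∀ u ∈ U, L (r2 u : M2) = (r1 u : M2) := by
    intro u hu
    rw [← sub_eq_zero]
    refine trace_zero_of_basis b1 fun j => ?_
    rw [hb1, sub_mul, trace_sub, h1, hb, ← Units.val_mul, ← map_mul, ← Units.val_mul, ← map_mul,
      htr _ (mul_mem hu (hv j)), sub_self]
  have hLmul : ∀ X Y, L (X * Y) = L X * L Y := by
    intro X Y
    have h2 : ∀ i, ∀ Y, L (b i * Y) = L (b i) * L Y := by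
      intro i Y
      let φ : M2 →ₗ[ℂ] M2 := L.comp (LinearMap.mulLeft ℂ (b i))
      let ψ : M2 →ₗ[ℂ] M2 := (LinearMap.mulLeft ℂ (L (b i))).comp L
      have h3 : φ = ψ := b.ext fun j => by
        change L (b i * b j) = L (b i) * L (b j)
        rw [hLb, hLb, hb, hb, ← Units.val_mul, ← map_mul, hLU _ (mul_mem (hv i) (hv j)), map_mul,
          Units.val_mul]
      exact LinearMap.congr_fun h3 Y
    let φ : M2 →ₗ[ℂ] M2 := L.comp (LinearMap.mulRight ℂ Y)
    let ψ : M2 →ₗ[ℂ] M2 := (LinearMap.mulRight ℂ (L Y)).comp L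
    have h3 : φ = ψ := b.ext fun i => h2 i Y
    exact LinearMap.congr_fun h3 X
  have hL1 : L 1 = 1 := by
    have h2 := hLU 1 (one_mem U)
    rwa [map_one, map_one, Units.val_one] at h2
  have hLtr : ∀ X, (L X).trace = X.trace := by
    intro X
    have h2 := h1 X 0
    rw [hb] at h2
    change (L X * (r1 1 : M2)).trace = (X * (r2 1 : M2)).trace at h2
    rwa [map_one, map_one, Units.val_one, mul_one, mul_one] at h2
  have hLdet : ∀ X, (L X).det = X.det := by
    intro X
    have h2 := two_mul_det (L X)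
    rw [← hLmul, hLtr, hLtr, ← two_mul_det] at h2
    linear_combination (1 / 2 : ℂ) * h2
  -- the scalar
  have hc : ∀ g, ∃ c : ℂ, (r1 g : M2) = c • L (r2 g : M2) := by
    intro g
    obtain ⟨s, hs⟩ := hLsurj (r1 g : M2)
    have h2 : ∀ u ∈ U, s * (r2 u : M2) = (r2 (g * u * g⁻¹) : M2) * s := by
      intro u hu
      apply hLinj
      rw [hLmul, hLmul, hs, hLU u hu, hLU _ (hU.conj_mem u hu g), ← Units.val_mul,
        ← Units.val_mul, ← map_mul, ← map_mul, inv_mul_cancel_right]
    have h3 : ∀ u ∈ U, ((r2 g⁻¹ : M2) * s) * (r2 u : M2) = (r2 u : M2) * ((r2 g⁻¹ : M2) * s) := by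
      intro u hu
      rw [mul_assoc, h2 u hu, ← mul_assoc, ← mul_assoc, ← Units.val_mul, ← Units.val_mul,
        ← map_mul, ← map_mul]
      congr 3
      group
    obtain ⟨c, hc⟩ := eq_smul_one_of_commute (X := (r2 g⁻¹ : M2) * s) (fun Y => by
      let φ : M2 →ₗ[ℂ] M2 := LinearMap.mulLeft ℂ ((r2 g⁻¹ : M2) * s)
      let ψ : M2 →ₗ[ℂ] M2 := LinearMap.mulRight ℂ ((r2 g⁻¹ : M2) * s)
      have h3 : φ = ψ := b.ext fun i => by
        change ((r2 g⁻¹ : M2) * s) * b i = b i * ((r2 g⁻¹ : M2) * s)
        rw [hb]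
        exact h3 _ (hv i)
      exact LinearMap.congr_fun h3 Y)
    refine ⟨c, ?_⟩
    have h4 : s = c • (r2 g : M2) := by
      have h5 : (r2 g : M2) * ((r2 g⁻¹ : M2) * s) = s := by
        rw [← mul_assoc, ← Units.val_mul, ← map_mul, mul_inv_cancel, map_one, Units.val_one,
          one_mul]
      rw [← h5, hc, mul_smul_comm, mul_one]
    rw [← hs, h4, map_smul]
  choose c hc using hc
  have hcd : ∀ g, (r1 g : M2).det = c g ^ 2 * (r2 g : M2).det := by
    intro g
    rw [hc g, Matrix.det_smul, hLdet, Fintype.card_fin]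
  have hc0 : ∀ g, c g ≠ 0 := by
    intro g h0
    have h2 := hcd g
    rw [h0] at h2
    apply hdet r1 g
    rw [h2]
    ring
  have hLne : ∀ g, L (r2 g : M2) ≠ 0 := by
    intro g h0
    apply hdet r2 g
    rw [← hLdet, h0]
    simp
  have hcan : ∀ (g : G) (a a' : ℂ), a • L (r2 g : M2) = a' • L (r2 g : M2) → a = a' := by
    intro g a a' h2
    have h3 : (a - a') • L (r2 g : M2) = 0 := by rw [sub_smul, h2, sub_self]
    exact sub_eq_zero.mp ((smul_eq_zero.mp h3).resolve_right (hLne g))
  have hc1 : ∀ g, r1 g = 1 → r2 g = 1 → c g = 1 := by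
    intro g h2 h3
    apply hcan g
    rw [← hc g, h2, h3, Units.val_one, hL1, one_smul]
  have hcm : ∀ g g', c (g * g') = c g * c g' := by
    intro g g'
    apply hcan (g * g')
    rw [← hc, map_mul, map_mul, Units.val_mul, Units.val_mul, hc g, hc g', hLmul,
      smul_mul_smul_comm]
  let η : G →* ℂ := ⟨⟨c, hc1 1 (map_one _) (map_one _)⟩, hcm⟩
  refine ⟨η.toHomUnits, fun g => ?_, fun g => hcd g, fun g h2 h3 => Units.ext (hc1 g h2 h3)⟩
  change _ = c g * _
  rw [hc g, trace_smul, hLtr, smul_eq_mul]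

end Fermat.Agent.LTEnd
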