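import Fermat.Agent.LTEnd.SqrtCyc
import Fermat.Agent.Neb.LinAlg
import Fermat.Agent.OrdP.CycInt

/-!
# Cyclotomic characters and quadratic characters of the Galois group of `ℚ`
-/

set_option autoImplicit false

noncomputable section

namespace Fermat.Agent.LTEnd

open Fermat.Agent.Neb

local notation "Qb" => AlgebraicClosure ℚ
local notation "Γℚ" => (AlgebraicClosure ℚ ≃ₐ[ℚ] AlgebraicClosure ℚ)

section Cyc

variable {N : ℕ} [NeZero N]

theorem apply_eq_pow_cyc (σ : Γℚ) {z : Qb} (hz : z ^ N = 1) :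
    σ z = z ^ ((cyc N σ : (ZMod N)ˣ) : ZMod N).val := by
  have h0 : z ≠ 0 := by
    rintro rfl
    rw [zero_pow (NeZero.ne N)] at hz
    exact zero_ne_one hz
  have h1 := modularCyclotomicCharacter.spec Qb (IsAlgClosed.card_rootsOfUnity_eq Qb N)
    (σ : Qb ≃+* Qb) (t := Units.mk0 z h0) (by
      rw [mem_rootsOfUnity]; ext; simpa using hz)
  exact h1

theorem cyc_eq_one_iff (σ : Γℚ) : cyc N σ = 1 ↔ FixMu N σ := by
  constructor
  · intro h z hz
    rw [apply_eq_pow_cyc σ hz, h, Units.val_one]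
    rcases eq_or_ne N 1 with h1 | h1
    · subst h1
      rw [pow_one] at hz
      rw [hz, one_pow]
    · rw [ZMod.val_one'' h1, pow_one]
  · intro h
    apply Units.ext
    rw [cyc_eq_of_forall N (a := 1) (fun z hz => by rw [pow_one]; exact h z hz)]
    simp

theorem cyc_surjective : Function.Surjective (cyc N) := by
  intro u
  obtain ⟨σ, hσ⟩ := OrdP.exists_gal_pow (n := N) (NeZero.pos N) (a := (u : ZMod N).val)
    (ZMod.val_coe_unit_coprime u)
  refine ⟨σ, Units.ext ?_⟩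
  rw [cyc_eq_of_forall N hσ, ZMod.natCast_val, ZMod.cast_id]

theorem cyc_dvd {M : ℕ} [NeZero M] (h : M ∣ N) (σ : Γℚ) :
    ZMod.unitsMap h (cyc N σ) = cyc M σ := by
  apply Units.ext
  rw [ZMod.unitsMap_val]
  have h1 := cyc_eq_of_forall M (σ := σ) (a := ((cyc N σ : (ZMod N)ˣ) : ZMod N).val)
    (fun z hz => apply_eq_pow_cyc σ (by
      obtain ⟨t, rfl⟩ := h
      rw [pow_mul, hz, one_pow]))
  rw [h1, ZMod.natCast_val]

/-- a character trivial on the automorphisms fixing the `N`-th roots of unity comes from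
`(ℤ/N)ˣ`. -/
theorem exists_lift_cyc {G : Type*} [CommGroup G] (ψ : Γℚ →* G) (h : ∀ σ, FixMu N σ → ψ σ = 1) :
    ∃ θ : (ZMod N)ˣ →* G, ∀ σ, θ (cyc N σ) = ψ σ := by
  refine ⟨(cyc N).liftOfSurjective cyc_surjective ⟨ψ, fun σ hσ => ?_⟩, fun σ => ?_⟩
  · exact h σ ((cyc_eq_one_iff σ).mp hσ)
  · exact MonoidHom.liftOfRightInverse_comp_apply _ _ _ _ σ

end Cyc

/-- quadratic characters of `Γℚ` are cyclotomic -/
theorem exists_fixMu_of_sq (ψ : Γℚ →* ℂˣ) (hfl : GaloisFactorsThroughFiniteLevel ψ)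
    (h2 : ∀ σ, ψ σ ^ 2 = 1) : ∃ N : ℕ, N ≠ 0 ∧ ∀ σ, FixMu N σ → ψ σ = 1 := by
  by_cases htriv : ∀ σ, ψ σ = 1
  · exact ⟨1, one_ne_zero, fun σ _ => htriv σ⟩
  push Not at htriv
  obtain ⟨τ, hτ⟩ := htriv
  obtain ⟨L, hL, hLψ⟩ := hfl
  have hle : L.fixingSubgroup ≤ ψ.ker := fun σ hσ => hLψ σ fun x hx =>
    (IntermediateField.mem_fixingSubgroup_iff _ _).1 hσ x hx
  have hopen : IsOpen (ψ.ker : Set Γℚ) := Subgroup.isOpen_mono hle L.fixingSubgroup_isOpen
  let H : ClosedSubgroup Γℚ := ⟨ψ.ker, Subgroup.isClosed_of_isOpen _ hopen⟩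
  have hgal := InfiniteGalois.fixingSubgroup_fixedField H
  have hτH : τ ∉ (IntermediateField.fixedField H.1).fixingSubgroup := by
    rw [hgal]
    exact hτ
  rw [IntermediateField.mem_fixingSubgroup_iff] at hτH
  push Not at hτH
  obtain ⟨y, hy, hτy⟩ := hτH
  have hyH : ∀ σ, ψ σ = 1 → σ y = y := fun σ hσ =>
    (IntermediateField.mem_fixedField_iff _ _).mp hy σ hσ
  have hpm : ∀ σ, ψ σ = 1 ∨ ψ σ = ψ τ := by
    intro σ
    have key : ∀ σ, ((ψ σ : ℂˣ) : ℂ) = 1 ∨ ((ψ σ : ℂˣ) : ℂ) = -1 := fun σ => by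
      have := congrArg (Units.val : ℂˣ → ℂ) (h2 σ)
      rw [Units.val_pow_eq_pow_val, Units.val_one] at this
      rw [sq] at this
      exact mul_self_eq_one_iff.mp this
    have hτ' : ((ψ τ : ℂˣ) : ℂ) = -1 := (key τ).resolve_left fun h => hτ (Units.ext h)
    rcases key σ with h | h
    · exact Or.inl (Units.ext h)
    · exact Or.inr (Units.ext (by rw [h, hτ']))
  have hττ : ψ (τ * τ) = 1 := by rw [map_mul, ← sq, h2]
  have hinv : ψ τ⁻¹ = ψ τ := by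
    rw [map_inv, inv_eq_iff_mul_eq_one, ← sq, h2]
  -- `τ τ y = y`
  have hττy : τ (τ y) = y := hyH (τ * τ) hττ
  have h1 : ∀ σ, ψ σ = 1 → σ (τ y) = τ y := by
    intro σ hσ
    have h3 : (τ⁻¹ * σ * τ) y = y := hyH _ (by rw [map_mul, map_mul, hσ, mul_one, ← map_mul]; simp)
    have h4 : τ ((τ⁻¹ * σ * τ) y) = σ (τ y) := by
      change (τ * (τ⁻¹ * σ * τ)) y = (σ * τ) y
      congr 1
      group
    rw [← h4, h3]
  set x : Qb := y - τ y with hx
  have hx0 : x ≠ 0 := fun h0 => hτy (sub_eq_zero.mp h0).symm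
  have hx1 : ∀ σ, ψ σ = 1 → σ x = x := fun σ hσ => by rw [hx, map_sub, hyH σ hσ, h1 σ hσ]
  have hx2 : ∀ σ, ψ σ = ψ τ → σ x = -x := by
    intro σ hσ
    have h3 : ψ (τ⁻¹ * σ) = 1 := by rw [map_mul, hσ, map_inv, inv_mul_cancel]
    have h4 := hx1 _ h3
    have h5 : σ x = τ ((τ⁻¹ * σ) x) := by
      change σ x = (τ * (τ⁻¹ * σ)) x
      rw [mul_inv_cancel_left]
    rw [h5, h4, hx, map_sub, hττy, neg_sub]
  have hfix : ∀ σ : Γℚ, σ (x ^ 2) = x ^ 2 := by
    intro σ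
    rw [map_pow]
    rcases hpm σ with h | h
    · rw [hx1 σ h]
    · rw [hx2 σ h, neg_sq]
  obtain ⟨d, hd⟩ := (InfiniteGalois.mem_range_algebraMap_iff_fixed (k := ℚ) (x ^ 2)).mpr hfix
  obtain ⟨N, hN, hNx⟩ := exists_cycN_of_sq x d (by rw [← hd]; rfl)
  refine ⟨N, hN, fun σ hσ => ?_⟩
  rcases hpm σ with h | h
  · exact h
  · exfalso
    have h3 := hNx σ hσ
    rw [hx2 σ h] at h3
    apply hx0
    have h4 : (2 : Qb) * x = 0 := by linear_combination -h3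
    exact (mul_eq_zero.mp h4).resolve_left two_ne_zero

end Fermat.Agent.LTEnd
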