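import Fermat.Agent.DS.HeckeG1

/-!
# The operator `∑ a_n q^n ↦ ∑ a_{mn} q^n` from `Γ₁(N)` to `Γ₁(N m)`
-/

set_option autoImplicit false

noncomputable section

namespace Fermat.Agent.LTEnd

open UpperHalfPlane ModularForm CongruenceSubgroup Matrix.SpecialLinearGroup
open Fermat.Agent.IntStr Fermat.Agent.Newform Fermat.Agent.DS
open scoped MatrixGroups Manifold Real

variable {N : ℕ} [NeZero N] {k : ℤ} {f : ℍ → ℂ}

theorem cover_Um {m : ℕ} [NeZero m] {κ : GL (Fin 2) ℝ} (hκ : κ ∈ G1 (N * m)) (i : Fin m) :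
    ∃ j : Fin m, heckeMatrix m (i : ℕ) * κ * (heckeMatrix m (j : ℕ))⁻¹ ∈ G1 N := by
  have hm0 : m ≠ 0 := NeZero.ne m
  have hmZ : (m : ℤ) ≠ 0 := by exact_mod_cast hm0
  obtain ⟨a, b, c, d, hdet, ⟨a', ha⟩, ⟨c', hc⟩, ⟨d', hd⟩, hm⟩ := mem_G1.mp hκ
  push_cast at ha hc hd
  have hj0 : 0 ≤ (((i : ℕ) : ℤ) + b) % m := Int.emod_nonneg _ hmZ
  obtain ⟨j, hj⟩ := Int.eq_ofNat_of_zero_le hj0
  have hjm : j < m := by
    have := Int.emod_lt_of_pos (((i : ℕ) : ℤ) + b) (show (0 : ℤ) < m by positivity)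
    rw [hj] at this
    exact_mod_cast this
  obtain ⟨t, ht⟩ : (m : ℤ) ∣ ((i : ℕ) : ℤ) + b - j := by
    rw [← hj]
    exact Int.dvd_self_sub_emod
  refine ⟨⟨j, hjm⟩, ?_⟩
  have ha2 : a = 1 + N * m * a' := by linarith
  have hd2 : d = 1 + N * m * d' := by linarith
  have h2 : (m : ℤ) * (t + N * (i : ℕ) * d' - N * j * a' - N * (i : ℕ) * j * c') =
      b + (i : ℕ) * d - j * a - (i : ℕ) * j * c := by
    rw [ha2, hd2, hc]
    linear_combination -ht
  rw [mem_G1]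
  refine ⟨a + (i : ℕ) * c, t + N * (i : ℕ) * d' - N * j * a' - N * (i : ℕ) * j * c', (m : ℤ) * c,
    d - j * c, ?_, ⟨m * a' + (i : ℕ) * m * c', ?_⟩, ⟨m * m * c', ?_⟩, ⟨m * d' - j * m * c', ?_⟩, ?_⟩
  · linear_combination hdet - c * h2
  · rw [ha2, hc]; ring
  · rw [hc]; ring
  · rw [hd2, hc]; ring
  · have e : (heckeMatrix m (i : ℕ) : Matrix (Fin 2) (Fin 2) ℝ) * (κ : Matrix (Fin 2) (Fin 2) ℝ) =
        !![((a + (i : ℕ) * c : ℤ) : ℝ),
          ((t + N * (i : ℕ) * d' - N * j * a' - N * (i : ℕ) * j * c' : ℤ) : ℝ);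
          (((m : ℤ) * c : ℤ) : ℝ), ((d - j * c : ℤ) : ℝ)] *
        (heckeMatrix m j : Matrix (Fin 2) (Fin 2) ℝ) := by
      rw [val_heckeMatrix hm0, val_heckeMatrix hm0, hm]
      have ht' : ((i : ℕ) : ℝ) + b - j = m * t := by exact_mod_cast ht
      have ha3 : (a : ℝ) = 1 + N * m * a' := by rw [ha2]; push_cast; ring
      have hd3 : (d : ℝ) = 1 + N * m * d' := by rw [hd2]; push_cast; ring
      have hc3 : (c : ℝ) = N * m * c' := by rw [hc]; push_cast; ring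
      ext x y
      fin_cases x <;> fin_cases y <;> simp [Matrix.mul_apply, Fin.sum_univ_two]
      · rw [ha3, hd3, hc3]
        linear_combination ht'
      · ring
    rw [Units.val_mul, Units.val_mul, e, mul_assoc, ← Units.val_mul, mul_inv_cancel, Units.val_one,
      mul_one]

theorem inj_Um {m : ℕ} [NeZero m] (i j : Fin m)
    (h : heckeMatrix m (i : ℕ) * (heckeMatrix m (j : ℕ))⁻¹ ∈ G1 N) : i = j := by
  have hm0 : m ≠ 0 := NeZero.ne m
  obtain ⟨a, b, c, d, hdet, ha, hc, hd, hm⟩ := mem_G1.mp h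
  have e : (heckeMatrix m (i : ℕ) : Matrix (Fin 2) (Fin 2) ℝ) =
      !![(a : ℝ), b; c, d] * (heckeMatrix m (j : ℕ) : Matrix (Fin 2) (Fin 2) ℝ) := by
    rw [← hm, ← Units.val_mul, mul_assoc, inv_mul_cancel, mul_one]
  rw [val_heckeMatrix hm0, val_heckeMatrix hm0] at e
  have e1 := congrFun (congrFun e 0) 0
  have e2 := congrFun (congrFun e 0) 1
  simp [Matrix.mul_apply, Fin.sum_univ_two] at e1 e2
  rw [← e1] at e2
  have e3 : ((i : ℕ) : ℤ) - (j : ℕ) = b * m := by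
    have : ((i : ℕ) : ℝ) - (j : ℕ) = b * m := by rw [e2]; ring
    exact_mod_cast this
  have h1 := i.2
  have h2 := j.2
  have h3 : b = 0 := by
    by_contra hb
    have h4 : (m : ℤ) ≤ |b * m| := by
      rw [abs_mul]
      have h5 : 1 ≤ |b| := Int.one_le_abs hb
      have h6 : |(m : ℤ)| = m := abs_of_nonneg (by positivity)
      rw [h6]
      nlinarith [show (0 : ℤ) ≤ m by positivity]
    rw [← e3] at h4
    have h7 : |((i : ℕ) : ℤ) - (j : ℕ)| < m := by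
      rw [abs_lt]; omega
    omega
  rw [h3, zero_mul] at e3
  exact Fin.ext (by omega)

theorem isCF_Um {m : ℕ} [NeZero m] (hf : IsCF (Gamma1 N) k f) :
    IsCF (Gamma1 (N * m)) k (heckeU k m f) := by
  have e : heckeU k m f = ∑ i : Fin m, f ∣[k] heckeMatrix m (i : ℕ) := by
    rw [heckeU, Finset.sum_range]
  rw [e]
  refine IsQCF.isCF (IsQCF.sum _ _ fun j _ => hf.isQCF.slash (isRatM_heckeMatrix m j)) ?_
  intro γ hγ
  rw [ModularForm.SL_slash]
  exact sum_reps_slash (G1_le_stab hf.slash) _ _ (fun i => cover_Um ⟨γ, hγ, rfl⟩ i)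
    (fun i j => inj_Um i j)

theorem co_Um {m : ℕ} [NeZero m] (hf : IsCF (Gamma1 N) k f) (n : ℕ) :
    co (heckeU k m f) n = co f (n * m) := by
  have hT := isCF_Um (m := m) hf
  exact coeff_unique (c := fun n ↦ co f (n * m)) hT.holo.continuous
    (hT.toIsMF.analyticAt (T_mem_Gamma1 _))
    (fun τ => hasSum_U (NeZero.ne m) (hasSum_of_mf hf.toIsMF) k τ) n

end Fermat.Agent.LTEnd
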