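import Fermat.Agent.DS.OpsG1
import Fermat.Agent.DS.WtOne
import Fermat.Agent.DS.EigLevel
import Fermat.Agent.LTEnd.Um

/-!
# From a partial eigenform of weight one to a normalised eigenform
-/

set_option autoImplicit false
set_option linter.style.haveILetI false

noncomputable section

namespace Fermat.Agent.LTEnd

open UpperHalfPlane ModularForm CongruenceSubgroup Matrix.SpecialLinearGroup
open Fermat.Agent.IntStr Fermat.Agent.Newform Fermat.Agent.DS
open scoped MatrixGroups Manifold Real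

/-- a family of commuting endomorphisms has a common eigenvector in every nonzero stable subspace -/
theorem exists_common_eigenvector {K V ι : Type*} [Field K] [IsAlgClosed K] [AddCommGroup V]
    [Module K V] [FiniteDimensional K V] (T : ι → Module.End K V)
    (hT : ∀ i j, Commute (T i) (T j)) (W : Submodule K V) (hW : W ≠ ⊥)
    (hst : ∀ i, ∀ v ∈ W, T i v ∈ W) :
    ∃ v ∈ W, v ≠ 0 ∧ ∀ i, ∃ μ : K, T i v = μ • v := by
  let S : Set (Submodule K V) := {X | X ≤ W ∧ X ≠ ⊥ ∧ ∀ i, ∀ v ∈ X, T i v ∈ X}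
  obtain ⟨X, ⟨hXW, hX0, hXst⟩, hmin⟩ := (wellFounded_lt (α := Submodule K V)).has_min S
    ⟨W, le_rfl, hW, hst⟩
  have hsc : ∀ i, ∃ μ : K, ∀ v ∈ X, T i v = μ • v := by
    intro i
    have : Nontrivial X := (Submodule.nontrivial_iff_ne_bot).mpr hX0
    obtain ⟨μ, hμ⟩ := Module.End.exists_eigenvalue ((T i).restrict (hXst i))
    obtain ⟨v, hv⟩ := hμ.exists_hasEigenvector
    let Y : Submodule K V := X ⊓ LinearMap.ker (T i - μ • (1 : Module.End K V))
    have hmem : ∀ w, w ∈ Y ↔ w ∈ X ∧ T i w = μ • w := by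
      intro w
      rw [Submodule.mem_inf, LinearMap.mem_ker, LinearMap.sub_apply, LinearMap.smul_apply,
        Module.End.one_apply, sub_eq_zero]
    have hY : Y ∈ S := by
      refine ⟨inf_le_left.trans hXW, ?_, ?_⟩
      · intro h0
        apply hv.2
        have h1 : (v : V) ∈ Y := by
          rw [hmem]
          refine ⟨v.2, ?_⟩
          have h2 := congrArg Subtype.val hv.apply_eq_smul
          rw [LinearMap.coe_restrict_apply] at h2
          rw [h2]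
          rfl
        rw [h0, Submodule.mem_bot] at h1
        exact Subtype.ext h1
      · intro j w hw
        rw [hmem] at hw ⊢
        refine ⟨hXst j w hw.1, ?_⟩
        have h3 := LinearMap.congr_fun (hT i j).eq w
        change T i (T j w) = T j (T i w) at h3
        rw [h3, hw.2, map_smul]
    have hYX : Y = X := by
      by_contra hne
      exact hmin Y hY (lt_of_le_of_ne inf_le_left hne)
    refine ⟨μ, fun w hw => ?_⟩
    rw [← hYX, hmem] at hw
    exact hw.2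
  obtain ⟨v, hv, hv0⟩ := Submodule.exists_mem_ne_zero_of_ne_bot hX0
  exact ⟨v, hXW hv, hv0, fun i => by
    obtain ⟨μ, hμ⟩ := hsc i
    exact ⟨μ, hμ v hv⟩⟩

variable {M : ℕ} [NeZero M] {k : ℤ} {f : ℍ → ℂ}

omit [NeZero M] in
theorem co_zero_of_cf (hf : IsCF (Gamma1 M) k f) : co f 0 = 0 := by
  have h1 := UpperHalfPlane.qExpansion_coeff_zero (f := f) one_pos
    (hf.toIsMF.analyticAt (T_mem_Gamma1 M)) (hf.toIsMF.periodic (T_mem_Gamma1 M))
  rw [co, h1]
  have h2 := hf.zero_cusp 1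
  rw [SlashAction.slash_one] at h2
  exact h2.valueAtInfty_eq_zero

omit [NeZero M] in
theorem co_smul (hf : IsCF (Gamma1 M) k f) (c : ℂ) (n : ℕ) : co (c • f) n = c * co f n := by
  rw [co, hf.toIsMF.qExpansion_smul (T_mem_Gamma1 M), PowerSeries.coeff_smul]
  rfl

theorem dia_of_eq_one (hf : IsCF (Gamma1 M) k f) {u : (ZMod M)ˣ} (hu : (u : ZMod M) = 1) :
    dia k u f = f := by
  rw [dia_eq hf.slash u (γ := 1) (one_mem _) (by rw [hu]; simp), SlashAction.slash_one]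

theorem opG_prime {p : ℕ} (hp : p.Prime) (hpM : ¬ p ∣ M) :
    opG M k (Sum.inl (⟨p, hp⟩ : Nat.Primes)) = TL k hp hpM := opG_inl (⟨p, hp⟩ : Nat.Primes) hpM

omit [NeZero M] in
/-- the primes in `S` do not divide `M` -/
theorem not_dvd_of_eq_one {ℓ : ℕ} (hℓ : ℓ.Prime) (h : (ℓ : ZMod M) = 1) : ¬ ℓ ∣ M := by
  intro hd
  have h1 : ((ℓ : ℕ) : ZMod ℓ) = 1 := by
    have := congrArg (ZMod.castHom hd (ZMod ℓ)) h
    rwa [map_natCast, map_one] at this
  rw [ZMod.natCast_self] at h1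
  have : Fact (1 < ℓ) := ⟨hℓ.one_lt⟩
  exact zero_ne_one h1

/-- **Part A**: a nonzero cusp form of weight one for `Γ₁(M)` on which the Hecke operators at a
set `S` of primes (`≡ 1` modulo `M`) act by scalars gives a normalised eigenform of some level
`M'`, with the same eigenvalues at the primes of `S` prime to `M'`. -/
theorem exists_eigOne (hM : 3 ≤ M) (hf : IsCF (Gamma1 M) 1 f) (hf0 : f ≠ 0) (S : Set ℕ)
    (hS : ∀ ℓ ∈ S, ℓ.Prime ∧ (ℓ : ZMod M) = 1) (lam : ℕ → ℂ)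
    (h : ∀ ℓ ∈ S, ∀ n, co f (ℓ * n) + (if ℓ ∣ n then co f (n / ℓ) else 0) = lam ℓ * co f n) :
    ∃ (M' : ℕ) (_ : NeZero M') (e : DirichletCharacter ℂ M') (g : ℍ → ℂ),
      M ∣ M' ∧ EigOne M' e g ∧ ∀ ℓ ∈ S, ¬ ℓ ∣ M' → co g ℓ = lam ℓ := by
  classical
  haveI := (nice_Gamma1 hM).finiteDimensional_CF 1
  have hSM : ∀ ℓ ∈ S, ¬ ℓ ∣ M := fun ℓ hℓ => not_dvd_of_eq_one (hS ℓ hℓ).1 (hS ℓ hℓ).2
  let W : Submodule ℂ (CF (Gamma1 M) 1) := ⨅ (ℓ : ℕ) (hℓ : ℓ ∈ S),
    LinearMap.ker (TL 1 (hS ℓ hℓ).1 (hSM ℓ hℓ) - lam ℓ • (1 : Module.End ℂ (CF (Gamma1 M) 1)))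
  have hmem : ∀ F : CF (Gamma1 M) 1, F ∈ W ↔ ∀ ℓ (hℓ : ℓ ∈ S),
      TL 1 (hS ℓ hℓ).1 (hSM ℓ hℓ) F = lam ℓ • F := by
    intro F
    simp only [W, Submodule.mem_iInf]
    refine forall_congr' fun ℓ => forall_congr' fun hℓ => ?_
    rw [LinearMap.mem_ker, LinearMap.sub_apply, LinearMap.smul_apply,
      Module.End.one_apply, sub_eq_zero]
  have hW0 : W ≠ ⊥ := by
    intro h0
    have h1 : (⟨f, hf⟩ : CF (Gamma1 M) 1) ∈ W := by
      rw [hmem]
      intro ℓ hℓ
      refine Subtype.ext (eq_of_co (IsCF.heckeOp (hS ℓ hℓ).1 (hSM ℓ hℓ) hf).toIsMF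
        ((CF (Gamma1 M) 1).smul_mem (lam ℓ) hf).toIsMF fun n => ?_)
      change co (heckeOp 1 (hS ℓ hℓ).1 (hSM ℓ hℓ) f) n = co (lam ℓ • f) n
      rw [co_heckeOp _ _ hf, co_smul hf, sub_self, zpow_zero, one_mul,
        dia_of_eq_one hf (by rw [val_up]; exact (hS ℓ hℓ).2), ← h ℓ hℓ n, mul_comm n ℓ]
    rw [h0, Submodule.mem_bot] at h1
    exact hf0 (congrArg Subtype.val h1)
  obtain ⟨v, hvW, hv0, hv⟩ := exists_common_eigenvector (opG M 1) commute_opG W hW0 (by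
    intro i F hF
    rw [hmem] at hF ⊢
    intro ℓ hℓ
    have h1 := commute_opG (N := M) (k := 1) (Sum.inl (⟨ℓ, (hS ℓ hℓ).1⟩ : Nat.Primes)) i
    rw [opG_prime (hS ℓ hℓ).1 (hSM ℓ hℓ)] at h1
    have h2 := LinearMap.congr_fun h1.eq F
    change TL 1 (hS ℓ hℓ).1 (hSM ℓ hℓ) (opG M 1 i F) =
      opG M 1 i (TL 1 (hS ℓ hℓ).1 (hSM ℓ hℓ) F) at h2
    rw [h2, hF ℓ hℓ, map_smul])
  rw [hmem] at hvW
  set g : ℍ → ℂ := v.1 with hg
  have hgcf : IsCF (Gamma1 M) 1 g := v.2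
  have hg0 : g ≠ 0 := fun h0 => hv0 (Subtype.ext h0)
  -- the character
  have hdia : ∀ u : (ZMod M)ˣ, ∃ μ : ℂ, dia 1 u g = μ • g := by
    intro u
    obtain ⟨μ, hμ⟩ := hv (Sum.inr u)
    exact ⟨μ, congrArg Subtype.val hμ⟩
  choose χ hχ using hdia
  have hinj : ∀ a b : ℂ, a • g = b • g → a = b := by
    intro a b hab
    by_contra hne
    apply hg0
    have h1 : (a - b) • g = 0 := by rw [sub_smul, hab, sub_self]
    exact (smul_eq_zero.mp h1).resolve_left (sub_ne_zero.mpr hne)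
  have hχ1 : χ 1 = 1 := by
    apply hinj
    rw [← hχ, dia_of_eq_one hgcf Units.val_one, one_smul]
  have hχm : ∀ u w, χ (u * w) = χ u * χ w := by
    intro u w
    apply hinj
    rw [← hχ, ← dia_dia hgcf.slash, hχ u, dia_smul, hχ w, smul_smul]
  let χ' : (ZMod M)ˣ →* ℂ := ⟨⟨χ, hχ1⟩, hχm⟩
  let e : DirichletCharacter ℂ M := MulChar.ofUnitHom χ'.toHomUnits
  have he : ∀ u : (ZMod M)ˣ, e (u : ZMod M) = χ u := by
    intro u
    change MulChar.ofUnitHom χ'.toHomUnits (u : ZMod M) = χ u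
    rw [MulChar.ofUnitHom_coe]
    rfl
  -- eigenvalues
  have hT : ∀ p : ℕ, ∀ (hp : p.Prime) (hpM : ¬ p ∣ M), ∃ a : ℂ, heckeOp 1 hp hpM g = a • g := by
    intro p hp hpM
    obtain ⟨μ, hμ⟩ := hv (Sum.inl (⟨p, hp⟩ : Nat.Primes))
    rw [opG_prime hp hpM] at hμ
    exact ⟨μ, congrArg Subtype.val hμ⟩
  have hrel : ∀ (p : ℕ) (hp : p.Prime) (hpM : ¬ p ∣ M) (a : ℂ), heckeOp 1 hp hpM g = a • g →
      ∀ n, co g (n * p) + e (p : ZMod M) * (if p ∣ n then co g (n / p) else 0) = a * co g n := by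
    intro p hp hpM a ha n
    have h1 := co_heckeOp hp hpM hgcf n
    rw [ha, co_smul hgcf, sub_self, zpow_zero, one_mul, hχ, co_smul hgcf, ← he, val_up] at h1
    rw [h1]
    split_ifs <;> simp
  -- the first nonzero coefficient
  have hex : ∃ n, co g n ≠ 0 := by
    by_contra hcon
    push Not at hcon
    apply hg0
    refine hgcf.toIsMF.eq_zero_of_qExpansion (T_mem_Gamma1 M) (PowerSeries.ext fun n => ?_)
    rw [map_zero]
    exact hcon n
  set m := Nat.find hex with hm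
  have hm1 : co g m ≠ 0 := Nat.find_spec hex
  have hmin : ∀ n < m, co g n = 0 := fun n hn => not_not.mp (Nat.find_min hex hn)
  have hm0 : m ≠ 0 := by
    intro h0
    rw [h0, co_zero_of_cf hgcf] at hm1
    exact hm1 rfl
  have hpm : ∀ p : ℕ, p.Prime → ¬ p ∣ M → ¬ p ∣ m := by
    rintro p hp hpM ⟨n, hn⟩
    obtain ⟨a, ha⟩ := hT p hp hpM
    have h1 := hrel p hp hpM a ha n
    have hn0 : 0 < n := by
      rcases Nat.eq_zero_or_pos n with h0 | h0
      · rw [h0, mul_zero] at hn; exact absurd hn hm0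
      · exact h0
    have hnm : n < m := by
      rw [hn]; exact (Nat.lt_mul_iff_one_lt_left hn0).mpr hp.one_lt
    rw [hmin n hnm, mul_comm n p, ← hn, mul_zero] at h1
    have h2 : (if p ∣ n then co g (n / p) else 0) = 0 := by
      split_ifs with h3
      · exact hmin _ (lt_of_le_of_lt (Nat.div_le_self n p) hnm)
      · rfl
    rw [h2, mul_zero, add_zero] at h1
    exact hm1 h1
  haveI : NeZero m := ⟨hm0⟩
  haveI : NeZero (M * m) := ⟨mul_ne_zero (NeZero.ne M) hm0⟩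
  let g' : ℍ → ℂ := (co g m)⁻¹ • heckeU 1 m g
  have hUcf := isCF_Um (m := m) hgcf
  have hg'cf : IsCF (Gamma1 (M * m)) 1 g' := (CF (Gamma1 (M * m)) 1).smul_mem _ hUcf
  have hco : ∀ n, co g' n = (co g m)⁻¹ * co g (n * m) := by
    intro n
    change co ((co g m)⁻¹ • heckeU 1 m g) n = _
    rw [co_smul hUcf, co_Um hgcf]
  have hap : ∀ (p : ℕ) (hp : p.Prime) (hpM : ¬ p ∣ M) (a : ℂ), heckeOp 1 hp hpM g = a • g →
      co g' p = a := by
    intro p hp hpM a ha
    have h1 := hrel p hp hpM a ha m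
    rw [if_neg (hpm p hp hpM), mul_zero, add_zero] at h1
    rw [hco, mul_comm p m, h1]
    field_simp
  refine ⟨M * m, inferInstance, DirichletCharacter.changeLevel (dvd_mul_right M m) e, g',
    dvd_mul_right M m, ⟨hg'cf, ?_, ?_⟩, ?_⟩
  · rw [hco, one_mul, inv_mul_cancel₀ hm1]
  · intro p hp hpMm n
    have hpM : ¬ p ∣ M := fun h0 => hpMm (h0.mul_right m)
    obtain ⟨a, ha⟩ := hT p hp hpM
    rw [changeLevel_prime m hp hpMm, hap p hp hpM a ha, hco, hco, hco]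
    have h1 := hrel p hp hpM a ha (n * m)
    have h2 : p ∣ n * m ↔ p ∣ n :=
      ⟨fun h0 => (hp.dvd_mul.mp h0).resolve_right (hpm p hp hpM), fun h0 => h0.mul_right m⟩
    have h4 : n * m * p = p * n * m := by ring
    rw [h4] at h1
    by_cases hpn : p ∣ n
    · rw [if_pos (h2.mpr hpn)] at h1
      rw [if_pos hpn]
      have h3 : n * m / p = n / p * m := by
        obtain ⟨t, rfl⟩ := hpn
        rw [Nat.mul_div_cancel_left _ hp.pos, mul_assoc, Nat.mul_div_cancel_left _ hp.pos]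
      rw [h3] at h1
      linear_combination (co g m)⁻¹ * h1
    · rw [if_neg (fun h0 => hpn (h2.mp h0))] at h1
      rw [if_neg hpn]
      linear_combination (co g m)⁻¹ * h1
  · intro ℓ hℓ _
    exact hap ℓ (hS ℓ hℓ).1 (hSM ℓ hℓ) (lam ℓ) (congrArg Subtype.val (hvW ℓ hℓ))

end Fermat.Agent.LTEnd
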