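import Fermat.Agent.DS.HeckeG1

/-!
# Multiplication of the `q`-coefficients by a periodic function

For `f` a cusp form for `Γ₁(N)` and `φ` a function on `ℤ/r`, the function
`∑ φ(n) a_n(f) q^n` is a cusp form for `Γ₁(N r²)`.
-/

set_option autoImplicit false

noncomputable section

namespace Fermat.Agent.LTEnd

open UpperHalfPlane ModularForm CongruenceSubgroup Matrix.SpecialLinearGroup
open Fermat.Agent.IntStr Fermat.Agent.Newform Fermat.Agent.DS
open scoped MatrixGroups Manifold Real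

variable {N : ℕ} [NeZero N] {k : ℤ} {f : ℍ → ℂ}

/-- `∑ c_j f(τ + j/r)` -/
def shiftSum (k : ℤ) (r : ℕ) (c : ℕ → ℂ) (f : ℍ → ℂ) : ℍ → ℂ :=
  ∑ j ∈ Finset.range r, c j • (f ∣[k] Tx ((j : ℝ) / r))

theorem shiftSum_apply (r : ℕ) (c : ℕ → ℂ) (τ : ℍ) :
    shiftSum k r c f τ = ∑ j ∈ Finset.range r, c j * f (((j : ℝ) / r) +ᵥ τ) := by
  rw [shiftSum, Finset.sum_apply]
  refine Finset.sum_congr rfl fun j _ => ?_
  rw [Pi.smul_apply, slash_Tx_apply, smul_eq_mul]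

/-- the root of unity `exp (2πi/r)` -/
def zr (r : ℕ) : ℂ := Complex.exp (2 * π * Complex.I / r)

theorem isPrimitiveRoot_zr {r : ℕ} (hr : r ≠ 0) : IsPrimitiveRoot (zr r) r :=
  Complex.isPrimitiveRoot_exp r hr

theorem qParam_vadd (r : ℕ) (j : ℕ) (τ : ℍ) :
    Function.Periodic.qParam 1 ((((j : ℝ) / r) +ᵥ τ : ℍ) : ℂ) =
      zr r ^ j * Function.Periodic.qParam 1 (τ : ℂ) := by
  rw [Function.Periodic.qParam, Function.Periodic.qParam, zr, ← Complex.exp_nat_mul,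
    ← Complex.exp_add, UpperHalfPlane.coe_vadd]
  congr 1
  push_cast
  ring

theorem hasSum_shiftSum (r : ℕ) (c : ℕ → ℂ) {a : ℕ → ℂ}
    (h : ∀ τ : ℍ, HasSum (fun m => a m • Function.Periodic.qParam 1 (τ : ℂ) ^ m) (f τ)) (τ : ℍ) :
    HasSum (fun m => (a m * ∑ j ∈ Finset.range r, c j * (zr r ^ m) ^ j) •
      Function.Periodic.qParam 1 (τ : ℂ) ^ m) (shiftSum k r c f τ) := by
  rw [shiftSum_apply]
  have h2 := hasSum_sum fun j (_ : j ∈ Finset.range r) ↦ (h (((j : ℝ) / r) +ᵥ τ)).mul_left (c j)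
  refine h2.congr_fun ?_
  intro m
  simp only [smul_eq_mul]
  rw [Finset.mul_sum, Finset.sum_mul]
  refine Finset.sum_congr rfl fun j _ => ?_
  rw [qParam_vadd, mul_pow, ← pow_mul, ← pow_mul, mul_comm j m]
  ring

/-- finite Fourier expansion -/
theorem exists_fourier {r : ℕ} [NeZero r] (φ : ZMod r → ℂ) :
    ∃ c : ℕ → ℂ, ∀ m : ℕ, ∑ j ∈ Finset.range r, c j * (zr r ^ m) ^ j = φ m := by
  have hr : r ≠ 0 := NeZero.ne r
  have hr' : (r : ℂ) ≠ 0 := by exact_mod_cast hr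
  have hζ := isPrimitiveRoot_zr hr
  set ζ := zr r with hζd
  have hζ0 : ζ ≠ 0 := hζ.ne_zero hr
  refine ⟨fun j => (r : ℂ)⁻¹ * ∑ i ∈ Finset.range r, φ i * (ζ⁻¹ ^ i) ^ j, fun m => ?_⟩
  have h1 : ∀ j ∈ Finset.range r, ((r : ℂ)⁻¹ * ∑ i ∈ Finset.range r, φ i * (ζ⁻¹ ^ i) ^ j) *
      (ζ ^ m) ^ j = ∑ i ∈ Finset.range r, (r : ℂ)⁻¹ * φ i * (ζ⁻¹ ^ i * ζ ^ m) ^ j := by
    intro j _
    rw [Finset.mul_sum, Finset.sum_mul]
    refine Finset.sum_congr rfl fun i _ => ?_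
    rw [mul_pow]
    ring
  rw [Finset.sum_congr rfl h1, Finset.sum_comm]
  have h2 : ∀ i ∈ Finset.range r, (∑ j ∈ Finset.range r, (r : ℂ)⁻¹ * φ i *
      (ζ⁻¹ ^ i * ζ ^ m) ^ j) = if m % r = i then φ i else 0 := by
    intro i hi
    rw [← Finset.mul_sum]
    have hi' := Finset.mem_range.mp hi
    have h3 : ζ⁻¹ ^ i * ζ ^ m = 1 ↔ m % r = i := by
      have hmod : ζ ^ m = ζ ^ (m % r) := by
        conv_lhs => rw [← Nat.div_add_mod m r]
        rw [pow_add, pow_mul, hζ.pow_eq_one, one_pow, one_mul]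
      rw [inv_pow, inv_mul_eq_one₀ (pow_ne_zero _ hζ0), eq_comm, hmod]
      constructor
      · intro h
        exact hζ.pow_inj (Nat.mod_lt _ (Nat.pos_of_ne_zero hr)) hi' h
      · intro h
        rw [h]
    split_ifs with h
    · rw [h3.mpr h]
      simp only [one_pow, Finset.sum_const, Finset.card_range, nsmul_eq_mul, mul_one]
      field_simp
    · have h5 : ζ⁻¹ ^ i * ζ ^ m ≠ 1 := fun h6 => h (h3.mp h6)
      have h7 := geom_sum_mul (ζ⁻¹ ^ i * ζ ^ m) r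
      have h8 : (ζ⁻¹ ^ i * ζ ^ m) ^ r = 1 := by
        rw [mul_pow, ← pow_mul, ← pow_mul, mul_comm i r, mul_comm m r, pow_mul, pow_mul, inv_pow,
          hζ.pow_eq_one]
        simp
      rw [h8, sub_self] at h7
      rcases mul_eq_zero.mp h7 with h9 | h9
      · rw [h9, mul_zero]
      · exact absurd (sub_eq_zero.mp h9) h5
  rw [Finset.sum_congr rfl h2, Finset.sum_ite_eq, if_pos (Finset.mem_range.mpr
    (Nat.mod_lt _ (Nat.pos_of_ne_zero hr)))]
  rw [ZMod.natCast_mod]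

theorem slash_Tx_inv {r : ℕ} [NeZero r] (hf : Inv1 N k f) (j : ℕ) {γ : SL(2, ℤ)}
    (hγ : γ ∈ Gamma1 (N * r ^ 2)) :
    (f ∣[k] Tx ((j : ℝ) / r)) ∣[k] γ = f ∣[k] Tx ((j : ℝ) / r) := by
  have hr : (r : ℝ) ≠ 0 := by exact_mod_cast NeZero.ne r
  obtain ⟨a, b, c, d, hdet, ha, hc, hd, hm⟩ := mem_G1.mp (⟨γ, hγ, rfl⟩ : mapGL ℝ γ ∈
    G1 (N * r ^ 2))
  obtain ⟨a', ha'⟩ := ha
  obtain ⟨c', hc'⟩ := hc
  obtain ⟨d', hd'⟩ := hd
  push_cast at ha' hc' hd'
  have key : Tx ((j : ℝ) / r) * mapGL ℝ γ * (Tx ((j : ℝ) / r))⁻¹ ∈ G1 N := by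
    rw [mem_G1]
    refine ⟨a + N * r * j * c', b + N * r * j * (d' - a') - N * c' * j ^ 2, c,
      d - N * r * j * c', ?_, ⟨r ^ 2 * a' + r * j * c', ?_⟩, ⟨r ^ 2 * c', ?_⟩,
      ⟨r ^ 2 * d' - r * j * c', ?_⟩, ?_⟩
    · have ha2 : a = 1 + N * r ^ 2 * a' := by linarith
      have hd2 : d = 1 + N * r ^ 2 * d' := by linarith
      have h1 : (a + N * r * j * c') * (d - N * r * j * c') -
        (b + N * r * j * (d' - a') - N * c' * j ^ 2) * c - (a * d - b * c) = 0 := by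
        rw [ha2, hd2, hc']
        ring
      linarith
    · linear_combination ha'
    · linear_combination hc'
    · linear_combination hd'
    · have e1 : (Tx ((j : ℝ) / r))⁻¹ = Tx (-((j : ℝ) / r)) := (Tx_neg _).symm
      rw [e1, Units.val_mul, Units.val_mul, hm, Tx, Tx, val_mat, val_mat]
      have ha2 : (a : ℝ) = 1 + N * r ^ 2 * a' := by
        have : a = 1 + N * r ^ 2 * a' := by linarith
        rw [this]; push_cast; ring
      have hd2 : (d : ℝ) = 1 + N * r ^ 2 * d' := by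
        have : d = 1 + N * r ^ 2 * d' := by linarith
        rw [this]; push_cast; ring
      have hc2 : (c : ℝ) = N * r ^ 2 * c' := by
        rw [hc']; push_cast; ring
      ext i i'
      fin_cases i <;> fin_cases i' <;>
        simp [Matrix.mul_apply, Fin.sum_univ_two]
      · rw [hc2]; field_simp
      · rw [ha2, hd2, hc2]; field_simp; ring
      · rw [hc2, hd2]; field_simp; ring
  have h2 := G1_le_stab hf key
  rw [mem_stab] at h2
  rw [ModularForm.SL_slash, ← SlashAction.slash_mul]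
  change f ∣[k] (Tx ((j : ℝ) / r) * mapGL ℝ γ) = _
  have h3 : Tx ((j : ℝ) / r) * mapGL ℝ γ =
      (Tx ((j : ℝ) / r) * mapGL ℝ γ * (Tx ((j : ℝ) / r))⁻¹) * Tx ((j : ℝ) / r) := by
    group
  rw [h3, SlashAction.slash_mul, h2]

theorem isCF_shiftSum {r : ℕ} [NeZero r] (c : ℕ → ℂ) (hf : IsCF (Gamma1 N) k f) :
    IsCF (Gamma1 (N * r ^ 2)) k (shiftSum k r c f) := by
  refine IsQCF.isCF (IsQCF.sum _ _ fun j _ => IsQCF.smul _ (hf.isQCF.slash ?_)) ?_
  · have := isRatM_Tx ((j : ℚ) / r)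
    push_cast at this
    exact this
  · intro γ hγ
    rw [shiftSum, ModularForm.SL_slash, SlashAction.sum_slash]
    refine Finset.sum_congr rfl fun j _ => ?_
    rw [← ModularForm.SL_slash, SL_smul_slash, slash_Tx_inv hf.slash j hγ]

/-- **twisting / depletion**: multiplication of the coefficients by a function of period `r`. -/
theorem exists_qmul {r : ℕ} [NeZero r] (φ : ZMod r → ℂ) (hf : IsCF (Gamma1 N) k f) :
    ∃ F : ℍ → ℂ, IsCF (Gamma1 (N * r ^ 2)) k F ∧ ∀ n, co F n = φ n * co f n := by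
  obtain ⟨c, hc⟩ := exists_fourier φ
  refine ⟨shiftSum k r c f, isCF_shiftSum c hf, fun n => ?_⟩
  have hF := isCF_shiftSum (r := r) c hf
  refine coeff_unique (c := fun n => φ n * co f n) hF.holo.continuous
    (hF.toIsMF.analyticAt (T_mem_Gamma1 _)) (fun τ => ?_) n
  refine (hasSum_shiftSum r c (hasSum_of_mf hf.toIsMF) τ).congr_fun fun m => ?_
  rw [hc m, mul_comm]
  rfl

end Fermat.Agent.LTEnd
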