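import Fermat.Agent.LTEnd.Rep
import Fermat.Agent.LTEnd.QTwist

/-!
# The end of the proof of S47: from a partial eigenform of weight one
-/

set_option autoImplicit false

noncomputable section

namespace Fermat.Agent.LTEnd

open Matrix FLT.ExplicitLift EisensteinWeightOne CongruenceSubgroup ModularFormClass
open Fermat.Agent.Neb Fermat.Agent.DS Fermat.Agent.IntStr WeierstrassCurve
open scoped MatrixGroups

local notation "Qb" => AlgebraicClosure ℚ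
local notation "Γℚ" => (AlgebraicClosure ℚ ≃ₐ[ℚ] AlgebraicClosure ℚ)
local notation "G3" => GL (Fin 2) (ZMod 3)
local notation "M3" => Matrix (Fin 2) (Fin 2) (ZMod 3)
local notation "MZ" => Matrix (Fin 2) (Fin 2) (ℤ√(-2))
local notation "M2" => Matrix (Fin 2) (Fin 2) ℂ

/-- the sign character modulo `3` -/
def sgn3 : (ZMod 3)ˣ →* ℤˣ where
  toFun u := if u = 1 then 1 else -1
  map_one' := by simp
  map_mul' := by decide

theorem iota_det_eq {Ψ : G3 →* GL (Fin 2) (ℤ√(-2))}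
    (hΨ : ∀ g, Matrix.GeneralLinearGroup.map red (Ψ g) = g) (ι : ℤ√(-2) →+* ℂ) (g : G3) :
    ι (Ψ g : MZ).det = (((sgn3 (Matrix.GeneralLinearGroup.det g) : ℤˣ) : ℤ) : ℂ) := by
  have key : ∀ u : (ZMod 3)ˣ, u = 1 ∨ u = -1 := by decide
  rcases key (Matrix.GeneralLinearGroup.det g) with h | h
  · rw [h, map_one, det_lift_one hΨ g (congrArg Units.val h)]
    simp
  · have h2 : sgn3 (-1) = -1 := by decide
    rw [h, h2, det_lift_neg_one hΨ g (by simpa using congrArg Units.val h)]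
    simp

/-- `FormalHecke` relations: descent of the coefficients to `ℤ[√-2]` -/
theorem exists_coeff {ι : ℤ√(-2) →+* ℂ} {c : ℕ → ℂ} (h0 : c 0 = 0) (h1 : c 1 = 1)
    {a e : ℕ → ℤ√(-2)} (h : ∀ p : ℕ, p.Prime → ∀ n : ℕ,
      c (p * n) + ι (e p) * (if p ∣ n then c (n / p) else 0) = ι (a p) * c n) :
    ∃ b : ℕ → ℤ√(-2), (∀ n, ι (b n) = c n) ∧ FormalHecke.IsEigensystem e b ∧
      ∀ p : ℕ, p.Prime → b p = a p := by
  have hex : ∀ n, ∃ z, ι z = c n := by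
    intro n
    induction n using Nat.strong_induction_on with
    | _ n ih =>
      rcases Nat.eq_zero_or_pos n with hn | hn
      · exact ⟨0, by rw [hn, h0, map_zero]⟩
      rcases Nat.eq_or_lt_of_le (Nat.succ_le_of_lt hn) with hn1 | hn1
      · exact ⟨1, by rw [← hn1, map_one]; exact h1.symm⟩
      obtain ⟨p, hp, m, rfl⟩ := Nat.exists_prime_and_dvd (n := n) (by omega)
      have hm0 : 0 < m := Nat.pos_of_mul_pos_left hn
      have hmn : m < p * m := (Nat.lt_mul_iff_one_lt_left hm0).mpr hp.one_lt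
      obtain ⟨z, hz⟩ := ih m hmn
      have h2 := h p hp m
      split_ifs at h2 with hpm
      · obtain ⟨w, hw⟩ := ih (m / p) (lt_of_le_of_lt (Nat.div_le_self _ _) hmn)
        refine ⟨a p * z - e p * w, ?_⟩
        rw [map_sub, map_mul, map_mul, hz, hw]
        linear_combination -h2
      · refine ⟨a p * z, ?_⟩
        rw [map_mul, hz]
        linear_combination -h2
  choose b hb using hex
  have hinj := iota_injective ι
  have hb1 : b 1 = 1 := hinj (by rw [hb, h1, map_one])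
  have hbp : ∀ p : ℕ, p.Prime → b p = a p := by
    intro p hp
    apply hinj
    have h2 := h p hp 1
    rw [if_neg (fun hd => hp.one_lt.ne' (Nat.dvd_one.mp hd)), mul_one, mul_zero, add_zero, h1,
      mul_one] at h2
    rw [hb, h2]
  refine ⟨b, hb, ⟨hb1, fun p hp n => ?_⟩, hbp⟩
  apply hinj
  rw [map_add, map_mul, map_mul, hb, hb n, hbp p hp, ← h p hp n]
  congr 2
  split_ifs
  · rw [hb]
  · rw [map_zero]

/-- **END**: the conclusion of S47 from a weight one cusp form on which the Hecke operators at the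
primes with Frobenius in an open normal subgroup `U` act by the traces of `Ψ ∘ ρ`. -/
theorem s47_of_weightOne
    (ρ : Γℚ →* GL (Fin 2) (ZMod 3)) (hρ : Continuous ρ) (hsurj : Function.Surjective ρ)
    (hdet : ∀ σ : Γℚ, Matrix.GeneralLinearGroup.det (ρ σ) = modThreeCyclotomicChar σ)
    (Ψ : GL (Fin 2) (ZMod 3) →* GL (Fin 2) (ℤ√(-2)))
    (hΨ : ∀ g, Matrix.GeneralLinearGroup.map red (Ψ g) = g)
    (ι : ℤ√(-2) →+* ℂ)
    (U : Subgroup Γℚ) [hUn : U.Normal] (hU : IsOpen (U : Set Γℚ))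
    (hUρ : ∃ σ ∈ U, ρ σ ≠ 1 ∧ ρ σ ≠ -1)
    {M : ℕ} [NeZero M] (f : CuspForm (Gamma1 M) 1) (hf : f ≠ 0) (B : ℕ)
    (hT : ∀ ℓ : ℕ, ℓ.Prime → B < ℓ → (ℓ : ZMod M) = 1 → ∀ A : ValuationSubring Qb,
      A.LiesOverPrime ℓ → ∀ φ ∈ U, A.IsFrobeniusAt φ ℓ → ∀ n : ℕ,
      qCoeff f (ℓ * n) + (if ℓ ∣ n then qCoeff f (n / ℓ) else 0) =
        ι (Ψ (ρ φ) : Matrix (Fin 2) (Fin 2) (ℤ√(-2))).trace * qCoeff f n) :
    ∃ (N : ℕ) (_ : NeZero N) (b : ℕ → ℤ√(-2)),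
      FormalHecke.IsEigensystem
        (fun ℓ => if ℓ ∣ N then 0 else ((chiNegThree ℓ : ℤ) : ℤ√(-2))) b ∧
      CuspForm.IsWeightOneChiNegThreeRealized N b ∧
      ∀ p : ℕ, p.Prime → ¬ p ∣ 3 * N →
        ∀ A : ValuationSubring (AlgebraicClosure ℚ), A.LiesOverPrime p →
          ∀ σ : Γℚ, A.IsFrobeniusAt σ p →
            b p = ((Ψ (ρ σ) : GL (Fin 2) (ℤ√(-2))) : Matrix (Fin 2) (Fin 2) (ℤ√(-2))).trace := by
  classical
  obtain ⟨M', hM'0, e, g, η, hg, hηf, hηt, hηd⟩ :=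
    exists_eigOne_twist ρ hρ hsurj Ψ hΨ ι U hU hUρ f hf B hT
  have : NeZero (3 * M') := ⟨mul_ne_zero (by norm_num) (NeZero.ne M')⟩
  have : NeZero (3 : ℕ) := ⟨by norm_num⟩
  -- `η²` is a Dirichlet character
  let sC : (ZMod 3)ˣ →* ℂˣ := (Units.map (Int.castRingHom ℂ : ℤ →* ℂ)).comp sgn3
  have hdetρ : ∀ σ, ι (Ψ (ρ σ) : MZ).det = ((sC (cyc 3 σ) : ℂˣ) : ℂ) := by
    intro σ
    rw [iota_det_eq hΨ ι, hdet σ]
    rfl
  let δ : (ZMod (3 * M'))ˣ →* ℂˣ := (e.toUnitHom.comp (ZMod.unitsMap (dvd_mul_left M' 3))) *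
    (sC.comp (ZMod.unitsMap (dvd_mul_right 3 M')))⁻¹
  have hδ : ∀ σ, η σ ^ 2 = δ (cyc (3 * M') σ) := by
    intro σ
    have h1 : δ (cyc (3 * M') σ) = e.toUnitHom (cyc M' σ) * (sC (cyc 3 σ))⁻¹ := by
      change e.toUnitHom (ZMod.unitsMap _ (cyc (3 * M') σ)) *
        (sC (ZMod.unitsMap _ (cyc (3 * M') σ)))⁻¹ = _
      rw [cyc_dvd, cyc_dvd]
    rw [h1, eq_mul_inv_iff_mul_eq]
    apply Units.ext
    rw [Units.val_mul, Units.val_pow_eq_pow_val, ← hdetρ, ← hηd, MulChar.coe_toUnitHom]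
  obtain ⟨N', hN'0, θ, hθ⟩ := exists_dirichlet hηf hδ
  -- the twist
  let R : ℕ := 3 * M' * N'
  have hR0 : NeZero R := ⟨mul_ne_zero (NeZero.ne _) (NeZero.ne N')⟩
  have hdM : M' ∣ R := (dvd_mul_left M' 3).trans (dvd_mul_right _ _)
  have hd3 : 3 ∣ R := (dvd_mul_right 3 M').trans (dvd_mul_right _ _)
  have hdN : N' ∣ R := dvd_mul_left _ _
  let χ : DirichletCharacter ℂ R := MulChar.ofUnitHom ((θ⁻¹).comp (ZMod.unitsMap hdN))
  obtain ⟨F, hF, hFco⟩ := exists_qmul (χ : ZMod R → ℂ) hg.cf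
  have hN0 : NeZero (M' * R ^ 2) := ⟨mul_ne_zero (NeZero.ne M') (pow_ne_zero 2 (NeZero.ne R))⟩
  have hdvd : ∀ p : ℕ, p.Prime → (p ∣ M' * R ^ 2 ↔ p ∣ R) := fun p hp =>
    ⟨fun h => (hp.dvd_mul.mp h).elim (fun h => h.trans hdM) (fun h => hp.dvd_of_dvd_pow h),
      fun h => (h.trans (dvd_pow_self R two_ne_zero)).mul_left M'⟩
  -- values at good primes
  have hgood : ∀ p : ℕ, p.Prime → ¬ p ∣ R → ∀ A : ValuationSubring Qb, A.LiesOverPrime p →
      ∀ σ : Γℚ, A.IsFrobeniusAt σ p → χ (p : ZMod R) * co g p = ι (Ψ (ρ σ) : MZ).trace ∧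
        (χ (p : ZMod R)) ^ 2 * e (p : ZMod M') = ι ((chiNegThree p : ℤ) : ℤ√(-2)) := by
    intro p hp hpR A hA σ hσ
    have hpM' : ¬ p ∣ M' := fun h => hpR (h.trans hdM)
    have hp3 : ¬ p ∣ 3 := fun h => hpR (h.trans hd3)
    have hχ : χ (p : ZMod R) = ((η σ : ℂˣ) : ℂ)⁻¹ := by
      rw [← cyc_frobenius R hp hpR hA hσ, hθ]
      change MulChar.ofUnitHom _ _ = _
      rw [MulChar.ofUnitHom_coe]
      change (((θ (ZMod.unitsMap hdN (cyc R σ)))⁻¹ : ℂˣ) : ℂ) = _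
      rw [cyc_dvd, Units.val_inv_eq_inv_val]
    refine ⟨?_, ?_⟩
    · rw [hχ, hηt p hp hpM' A hA σ hσ, ← mul_assoc, inv_mul_cancel₀ (Units.ne_zero _), one_mul]
    · have h1 := hηd σ
      rw [cyc_frobenius M' hp hpM' hA hσ] at h1
      rw [h1, hχ, ← mul_assoc, ← mul_pow, inv_mul_cancel₀ (Units.ne_zero _), one_pow, one_mul]
      have hp3' : p ≠ 3 := fun h => hp3 (h ▸ dvd_rfl)
      rw [det_lift hΨ (ρ σ) hp hp3']
      have h2 := congrArg Units.val (hdet σ)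
      have h3 : ((modThreeCyclotomicChar σ : (ZMod 3)ˣ) : ZMod 3) = (p : ZMod 3) :=
        cyc_frobenius 3 hp hp3 hA hσ
      rw [h3] at h2
      exact h2
  have hbad : ∀ p : ℕ, p.Prime → p ∣ R → χ (p : ZMod R) = 0 := by
    intro p hp hpR
    refine MulChar.map_nonunit χ fun hu => ?_
    rw [ZMod.isUnit_iff_coprime] at hu
    have h1 : p ∣ 1 := by
      rw [← hu]
      exact Nat.dvd_gcd dvd_rfl hpR
    exact hp.one_lt.ne' (Nat.dvd_one.mp h1)
  -- a Frobenius at every prime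
  have hfrob : ∀ p : ℕ, p.Prime → ∃ A : ValuationSubring Qb, A.LiesOverPrime p ∧ ∃ σ : Γℚ,
      A.IsFrobeniusAt σ p := by
    intro p hp
    obtain ⟨A, hA⟩ := Frob.exists_liesOverPrime Qb hp
    obtain ⟨φ, hφ⟩ := Frob.exists_isFrobeniusAt A hp hA
    exact ⟨A, hA, φ, hφ⟩
  choose! Af hAf σf hσf using hfrob
  let a : ℕ → ℤ√(-2) := fun p => if p ∣ R then 0 else (Ψ (ρ (σf p)) : MZ).trace
  let e' : ℕ → ℤ√(-2) := fun ℓ => if ℓ ∣ R then 0 else ((chiNegThree ℓ : ℤ) : ℤ√(-2))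
  have hc0 : co F 0 = 0 := co_zero_of_cf hF
  have hc1 : co F 1 = 1 := by rw [hFco, Nat.cast_one, map_one, one_mul]; exact hg.one
  have hrel : ∀ p : ℕ, p.Prime → ∀ n : ℕ,
      co F (p * n) + ι (e' p) * (if p ∣ n then co F (n / p) else 0) = ι (a p) * co F n := by
    intro p hp n
    by_cases hpR : p ∣ R
    · have h1 : e' p = 0 := if_pos hpR
      have h2 : a p = 0 := if_pos hpR
      rw [h1, h2, map_zero, zero_mul, zero_mul, add_zero, hFco, Nat.cast_mul, map_mul,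
        hbad p hp hpR, zero_mul, zero_mul]
    · have h1 : e' p = ((chiNegThree p : ℤ) : ℤ√(-2)) := if_neg hpR
      have h2 : a p = (Ψ (ρ (σf p)) : MZ).trace := if_neg hpR
      obtain ⟨h3, h4⟩ := hgood p hp hpR _ (hAf p hp) _ (hσf p hp)
      have hpM' : ¬ p ∣ M' := fun h => hpR (h.trans hdM)
      rw [h1, h2, ← h3, ← h4, hFco, hFco n, Nat.cast_mul, map_mul]
      have h5 := hg.rel p hp hpM' n
      split_ifs at h5 ⊢ with hpn
      · rw [hFco]
        obtain ⟨m, rfl⟩ := hpn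
        rw [Nat.mul_div_cancel_left m hp.pos] at h5 ⊢
        rw [Nat.cast_mul, map_mul]
        linear_combination (χ (p : ZMod R)) ^ 2 * χ (m : ZMod R) * h5
      · linear_combination (χ (p : ZMod R)) * χ (n : ZMod R) * h5
  obtain ⟨b, hb, hbe, hbp⟩ := exists_coeff hc0 hc1 hrel
  refine ⟨M' * R ^ 2, hN0, b, ⟨hbe.1, fun ℓ hℓ n => ?_⟩, ⟨ι, hF.toCuspForm, fun n => (hb n).symm⟩,
    ?_⟩
  · have h1 := hbe.2 ℓ hℓ n
    have h2 : e' ℓ = if ℓ ∣ M' * R ^ 2 then 0 else ((chiNegThree ℓ : ℤ) : ℤ√(-2)) := by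
      change (if ℓ ∣ R then 0 else ((chiNegThree ℓ : ℤ) : ℤ√(-2))) = _
      simp only [hdvd ℓ hℓ]
    rw [h2] at h1
    exact h1
  · intro p hp hpN A hA σ hσ
    have hpR : ¬ p ∣ R := fun h => hpN (((hdvd p hp).mpr h).mul_left 3)
    apply iota_injective ι
    rw [hb p, hFco]
    exact (hgood p hp hpR A hA σ hσ).1

end Fermat.Agent.LTEnd
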