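import Fermat.Agent.LTEnd.CycQ
import Fermat.Agent.Patch.TamePair
import Fermat.Prelude.Def_GaloisRep_ComplexConjugation

/-!
# A character of finite order of `Γℚ` whose square is a Dirichlet character is a Dirichlet character
-/

set_option autoImplicit false

noncomputable section

namespace Fermat.Agent.LTEnd

open Fermat.Agent.Neb

local notation "Qb" => AlgebraicClosure ℚ
local notation "Γℚ" => (AlgebraicClosure ℚ ≃ₐ[ℚ] AlgebraicClosure ℚ)

/-- tame inertia: the `2`-part of `η` has order dividing `q - 1` on inertia at the odd prime `q`. -/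
theorem tame_pow {η : Γℚ →* ℂˣ} (hfl : GaloisFactorsThroughFiniteLevel η) {q : ℕ} (hq : q.Prime)
    (hq2 : q ≠ 2) {P : ValuationSubring Qb} (hP : P.LiesOverPrime q) {a m : ℕ}
    (hn : ∀ σ, η σ ^ (2 ^ a * m) = 1) {s : Γℚ} (hs : s ∈ P.inertiaSubgroupIn ℚ) :
    η s ^ (m * (q - 1)) = 1 := by
  have : Fact (Nat.Prime 2) := ⟨Nat.prime_two⟩
  obtain ⟨φ, τ, T⟩ := Patch.exists_tamePair (p := 2) hq hq2 hP
  let f0 : Γℚ →* ℂˣ := (powMonoidHom m).comp η
  have hf0 : ∀ σ, f0 σ = η σ ^ m := fun σ => rfl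
  have hfin0 : GaloisFactorsThroughFiniteLevel f0 := by
    obtain ⟨L, hL, h⟩ := hfl
    exact ⟨L, hL, fun σ hσ => by rw [hf0, h σ hσ, one_pow]⟩
  have hfin : Finite f0.range := by
    have := DS.finite_range hfin0
    exact this.to_subtype
  obtain ⟨L, hL, hLf⟩ := hfin0
  have hlev : ∃ F : IntermediateField ℚ Qb, FiniteDimensional ℚ F ∧
      F.fixingSubgroup ≤ f0.rangeRestrict.ker := ⟨L, hL, fun σ hσ => by
    rw [MonoidHom.mem_ker]
    apply Subtype.ext
    exact hLf σ fun x hx => (IntermediateField.mem_fixingSubgroup_iff _ _).1 hσ x hx⟩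
  have h2 : ∀ t ∈ P.inertiaSubgroupIn ℚ, ∃ k : ℕ, f0.rangeRestrict t ^ 2 ^ k = 1 := fun t _ =>
    ⟨a, Subtype.ext (by
      change (f0 t) ^ 2 ^ a = 1
      rw [hf0, ← pow_mul, mul_comm m]
      exact hn t)⟩
  have h3 := T.rel f0.rangeRestrict hlev h2
  have h4 : f0 τ ^ (q - 1) = 1 := by
    have h5 : f0 φ * f0 τ * (f0 φ)⁻¹ = f0 τ ^ q := congrArg Subtype.val h3
    rw [mul_inv_cancel_comm] at h5
    obtain ⟨r, hr⟩ : ∃ r, q = r + 1 := ⟨q - 1, (Nat.sub_add_cancel hq.one_le).symm⟩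
    rw [hr, pow_succ] at h5
    rw [hr, Nat.add_sub_cancel]
    exact mul_eq_right.mp h5.symm
  obtain ⟨k, hk⟩ := T.zpow f0.rangeRestrict hlev h2 s hs
  have h5 : f0 τ ^ k = f0 s := congrArg Subtype.val hk
  rw [pow_mul, ← hf0, ← h5, ← zpow_natCast, ← zpow_mul, mul_comm, zpow_mul, zpow_natCast, h4,
    one_zpow]

theorem cyc_complexConjugation {N : ℕ} [NeZero N] :
    ((cyc N complexConjugation : (ZMod N)ˣ) : ZMod N) = -1 := by
  have hN : 1 ≤ N := Nat.one_le_iff_ne_zero.mpr (NeZero.ne N)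
  rw [cyc_eq_of_forall N (a := N - 1) (fun z hz => ?_)]
  · rw [Nat.cast_sub hN, Nat.cast_one, ZMod.natCast_self, zero_sub]
  · have hcc : complexConjugation z = z⁻¹ := by
      apply complexEmbedding.injective
      change complexEmbedding (complexConjugation z) = complexEmbedding z⁻¹
      rw [complexEmbedding_complexConjugation, map_inv₀]
      have h1 : (complexEmbedding z) ^ N = 1 := by rw [← map_pow, hz, map_one]
      have h2 : ‖complexEmbedding z‖ = 1 := Complex.norm_eq_one_of_pow_eq_one h1 (NeZero.ne N)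
      exact (Complex.inv_eq_conj h2).symm
    rw [hcc]
    refine inv_eq_of_mul_eq_one_right ?_
    rw [← pow_succ', Nat.sub_add_cancel hN, hz]

section Main

variable {η : Γℚ →* ℂˣ} {N : ℕ} [NeZero N] {δ : (ZMod N)ˣ →* ℂˣ}

theorem chi_prime_pow (hfl : GaloisFactorsThroughFiniteLevel η)
    (h : ∀ σ, η σ ^ 2 = δ (cyc N σ)) {q k m' : ℕ} (hq : q.Prime) (hq2 : q ≠ 2)
    (hN : N = q ^ k * m') (hcop : (q ^ k).Coprime m') (hk : k ≠ 0) (u : (ZMod N)ˣ)
    (hu : u ^ 2 = 1) (hu' : ((u : ZMod N).val : ZMod m') = 1) : δ u = 1 := by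
  have hm'0 : m' ≠ 0 := by rintro rfl; exact NeZero.ne N (by rw [hN, mul_zero])
  have : NeZero m' := ⟨hm'0⟩
  have : NeZero q := ⟨hq.ne_zero⟩
  have : NeZero (q ^ k) := ⟨pow_ne_zero _ hq.ne_zero⟩
  have hdq : q ^ k ∣ N := ⟨m', hN⟩
  have hdm : m' ∣ N := ⟨q ^ k, by rw [hN, mul_comm]⟩
  -- exponent of `η`
  obtain ⟨n, hn0, hn⟩ : ∃ n : ℕ, n ≠ 0 ∧ ∀ σ, η σ ^ n = 1 := by
    have : Finite η.range := (DS.finite_range hfl).to_subtype
    have : Fintype η.range := Fintype.ofFinite _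
    refine ⟨Fintype.card η.range, Fintype.card_ne_zero, fun σ => ?_⟩
    have h1 := pow_card_eq_one (x := η.rangeRestrict σ)
    exact congrArg Subtype.val h1
  obtain ⟨a, m, hm, rfl⟩ := Nat.exists_eq_two_pow_mul_odd hn0
  obtain ⟨P, hP⟩ := Frob.exists_liesOverPrime Qb hq
  -- generator
  have hcyc : IsCyclic (ZMod (q ^ k))ˣ := ZMod.isCyclic_units_of_prime_pow q hq hq2 k
  obtain ⟨g, hg⟩ := hcyc.exists_generator
  obtain ⟨σ, hσ⟩ := cyc_surjective (N := q ^ k) g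
  obtain ⟨s, hs, hs'⟩ := OrdP.exists_inertia_level hq hP k σ
  have hcs : cyc (q ^ k) s = g := by
    rw [← hσ]
    apply Units.ext
    refine (cyc_eq_of_forall (q ^ k) (σ := s) fun z hz => ?_).trans (ZMod.natCast_zmod_val _)
    rw [← hs' z hz]
    exact apply_eq_pow_cyc σ hz
  have hqm : ¬ q ∣ m' := fun hd => by
    have h1 : q ∣ Nat.gcd (q ^ k) m' := Nat.dvd_gcd (dvd_pow_self q hk) hd
    rw [hcop] at h1
    exact hq.one_lt.ne' (Nat.dvd_one.mp h1)
  have hcm : cyc m' s = 1 := cyc_inertia m' hq hqm hP hs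
  obtain ⟨j, hj⟩ := Subgroup.mem_zpowers_iff.mp (hg (ZMod.unitsMap hdq u))
  have hus : cyc N (s ^ j) = u := by
    have h1 : ZMod.unitsMap hdq (cyc N (s ^ j)) = ZMod.unitsMap hdq u := by
      rw [cyc_dvd, map_zpow, hcs, hj]
    have h2 : ZMod.unitsMap hdm (cyc N (s ^ j)) = ZMod.unitsMap hdm u := by
      rw [cyc_dvd, map_zpow, hcm, one_zpow]
      apply Units.ext
      rw [ZMod.unitsMap_val, Units.val_one, ← hu', ZMod.natCast_val]
    have h3 : ∀ (d : ℕ) (hd : d ∣ N), ZMod.unitsMap hd (cyc N (s ^ j)) = ZMod.unitsMap hd u →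
        (((cyc N (s ^ j) : (ZMod N)ˣ) : ZMod N).val : ZMod d) = ((u : ZMod N).val : ZMod d) := by
      intro d hd hh
      have h4 := congrArg (Units.val : (ZMod d)ˣ → ZMod d) hh
      rw [ZMod.unitsMap_val, ZMod.unitsMap_val] at h4
      rw [ZMod.natCast_val, ZMod.natCast_val, h4]
    have h4 := (ZMod.natCast_eq_natCast_iff _ _ _).mp (h3 _ hdq h1)
    have h5 := (ZMod.natCast_eq_natCast_iff _ _ _).mp (h3 _ hdm h2)
    have h6 := (Nat.modEq_and_modEq_iff_modEq_mul hcop).mp ⟨h4, h5⟩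
    rw [← hN] at h6
    have h7 := (ZMod.natCast_eq_natCast_iff _ _ N).mpr h6
    rw [ZMod.natCast_zmod_val, ZMod.natCast_zmod_val] at h7
    exact Units.ext h7
  -- order
  have hord : ((q ^ k).totient : ℤ) ∣ 2 * j := by
    have h1 : g ^ (2 * j) = 1 := by
      rw [mul_comm, zpow_mul, hj, ← map_zpow]
      have : u ^ (2 : ℤ) = 1 := by exact_mod_cast hu
      rw [this, map_one]
    have h2 : orderOf g = (q ^ k).totient := by
      rw [orderOf_eq_card_of_forall_mem_zpowers hg, Nat.card_eq_fintype_card,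
        ZMod.card_units_eq_totient]
    rw [← h2]
    exact orderOf_dvd_iff_zpow_eq_one.mpr h1
  obtain ⟨r, hr⟩ : ((q - 1 : ℕ) : ℤ) ∣ 2 * j := by
    refine dvd_trans ?_ hord
    rw [Nat.totient_prime_pow hq (Nat.pos_of_ne_zero hk)]
    exact_mod_cast dvd_mul_left _ _
  have h1 : δ u ^ m = 1 := by
    rw [← hus, ← h, map_zpow]
    have h2 := tame_pow hfl hq hq2 hP (a := a) (m := m) hn hs
    have h3 : ((η s ^ j) ^ 2) ^ m = (η s ^ (m * (q - 1))) ^ r := by
      rw [← zpow_natCast, ← zpow_natCast, ← zpow_natCast, ← zpow_mul, ← zpow_mul, ← zpow_mul]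
      congr 1
      push_cast
      linear_combination (m : ℤ) * hr
    rw [h3, h2, one_zpow]
  have h2 : δ u ^ 2 = 1 := by rw [← map_pow, hu, map_one]
  obtain ⟨t, rfl⟩ := hm
  rw [pow_succ, pow_mul, h2, one_pow, one_mul] at h1
  exact h1

theorem chi_odd_part (hfl : GaloisFactorsThroughFiniteLevel η)
    (h : ∀ σ, η σ ^ 2 = δ (cyc N σ)) (m : ℕ) : ∀ (m' : ℕ) (_ : N = m * m') (_ : m.Coprime m')
    (_ : Odd m) (hd : m' ∣ N) (u : (ZMod N)ˣ) (_ : u ^ 2 = 1)
    (_ : ZMod.castHom hd (ZMod m') (u : ZMod N) = 1), δ u = 1 := by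
  induction m using Nat.recOnPosPrimePosCoprime with
  | prime_pow q k hq hk =>
    intro m' hN hcop hodd hd u hu hu'
    have hq2 : q ≠ 2 := by
      rintro rfl
      exact (Nat.not_odd_iff_even.mpr ((Nat.even_pow.mpr ⟨even_two, hk.ne'⟩))) hodd
    refine chi_prime_pow hfl h hq hq2 hN hcop hk.ne' u hu ?_
    rw [ZMod.natCast_val]
    exact hu'
  | zero =>
    intro m' hN
    exact absurd (by rw [hN, zero_mul]) (NeZero.ne N)
  | one =>
    intro m' hN _ _ hd u _ hu'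
    rw [one_mul] at hN
    subst hN
    rw [ZMod.castHom_self, RingHom.id_apply] at hu'
    have hu1 : u = 1 := Units.ext hu'
    rw [hu1, map_one]
  | coprime a b ha hb hab iha ihb =>
    intro m' hN hcop hodd hd u hu hu'
    have hodd' := Nat.odd_mul.mp hodd
    have hcop' := Nat.coprime_mul_iff_left.mp hcop
    have hca : a.Coprime (b * m') := Nat.Coprime.mul_right hab hcop'.1
    have hcb : b.Coprime (a * m') := Nat.Coprime.mul_right hab.symm hcop'.2
    have hNa : N = a * (b * m') := by rw [hN, mul_assoc]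
    have hNb : N = b * (a * m') := by rw [hN]; ring
    have hda : a ∣ N := ⟨_, hNa⟩
    have hdb : b * m' ∣ N := ⟨a, by rw [hNa, mul_comm]⟩
    have hdc : a * m' ∣ N := ⟨b, by rw [hNb, mul_comm]⟩
    obtain ⟨x, hx1, hx2⟩ := Nat.chineseRemainder hca ((u : ZMod N).val) 1
    have hu2 : (u : ZMod N) ^ 2 = 1 := by
      rw [← Units.val_pow_eq_pow_val, hu, Units.val_one]
    -- residues
    have hxa : (x : ZMod a) = ZMod.castHom hda (ZMod a) (u : ZMod N) := by
      rw [(ZMod.natCast_eq_natCast_iff _ _ _).mpr hx1, ZMod.natCast_val]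
      rfl
    have hxb : (x : ZMod (b * m')) = 1 := by
      rw [(ZMod.natCast_eq_natCast_iff _ _ _).mpr hx2, Nat.cast_one]
    have key : ∀ y : ZMod N, ZMod.castHom hda (ZMod a) y = 0 →
        ZMod.castHom hdb (ZMod (b * m')) y = 0 → y = 0 := by
      intro y h1 h2
      have h3 : ((y.val : ℕ) : ZMod a) = 0 := by rw [ZMod.natCast_val]; exact h1
      have h4 : ((y.val : ℕ) : ZMod (b * m')) = 0 := by rw [ZMod.natCast_val]; exact h2
      rw [ZMod.natCast_eq_zero_iff] at h3 h4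
      have h5 := Nat.Coprime.mul_dvd_of_dvd_of_dvd hca h3 h4
      rw [← hNa] at h5
      rw [← ZMod.natCast_zmod_val y]
      exact (ZMod.natCast_eq_zero_iff _ _).mpr h5
    have hxx : (x : ZMod N) * (x : ZMod N) = 1 := by
      rw [← sub_eq_zero]
      apply key
      · rw [map_sub, map_mul, map_natCast, hxa, ← map_mul, ← sq, hu2, sub_self]
      · rw [map_sub, map_mul, map_natCast, hxb, mul_one, map_one, sub_self]
    let ua : (ZMod N)ˣ := ⟨x, x, hxx, hxx⟩
    have hua : (ua : ZMod N) = (x : ZMod N) := rfl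
    have hua2 : ua ^ 2 = 1 := Units.ext (by rw [sq, Units.val_mul, hua, hxx, Units.val_one])
    have h1 : δ ua = 1 := by
      refine iha (b * m') hNa hca hodd'.1 hdb ua hua2 ?_
      rw [hua, map_natCast, hxb]
    have h2 : δ (u * ua) = 1 := by
      refine ihb (a * m') hNb hcb hodd'.2 hdc (u * ua) (by rw [mul_pow, hu, hua2, one_mul]) ?_
      -- `u * ua ≡ 1` modulo `a * m'`
      have h3 : ZMod.castHom hda (ZMod a) ((u * ua : (ZMod N)ˣ) : ZMod N) = 1 := by
        rw [Units.val_mul, hua, map_mul, map_natCast, hxa, ← map_mul, ← sq, hu2, map_one]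
      have h4 : ZMod.castHom hd (ZMod m') ((u * ua : (ZMod N)ˣ) : ZMod N) = 1 := by
        rw [Units.val_mul, hua, map_mul, hu', one_mul, map_natCast]
        have h5 : ((x : ℕ) : ZMod (b * m')) = ((1 : ℕ) : ZMod (b * m')) := by rw [hxb, Nat.cast_one]
        have h6 := (ZMod.natCast_eq_natCast_iff _ _ _).mp h5
        have h7 := (ZMod.natCast_eq_natCast_iff _ _ m').mpr (h6.of_dvd (dvd_mul_left m' b))
        rw [h7, Nat.cast_one]
      set y : ZMod N := ((u * ua : (ZMod N)ˣ) : ZMod N) with hy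
      have h5 : ((y.val : ℕ) : ZMod a) = ((1 : ℕ) : ZMod a) := by
        rw [ZMod.natCast_val, Nat.cast_one]; exact h3
      have h6 : ((y.val : ℕ) : ZMod m') = ((1 : ℕ) : ZMod m') := by
        rw [ZMod.natCast_val, Nat.cast_one]; exact h4
      have h7 := (Nat.modEq_and_modEq_iff_modEq_mul hcop'.1).mp
        ⟨(ZMod.natCast_eq_natCast_iff _ _ _).mp h5, (ZMod.natCast_eq_natCast_iff _ _ _).mp h6⟩
      have h8 := (ZMod.natCast_eq_natCast_iff _ _ _).mpr h7
      rw [ZMod.natCast_val, Nat.cast_one] at h8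
      exact h8
    rw [map_mul, h1, mul_one] at h2
    exact h2

/-- `δ` kills the reductions of the involutions modulo `2 N`. -/
theorem chi_involution (hfl : GaloisFactorsThroughFiniteLevel η)
    (h : ∀ σ, η σ ^ 2 = δ (cyc N σ)) (w : (ZMod (2 * N))ˣ) (hw : w ^ 2 = 1) :
    δ (ZMod.unitsMap (dvd_mul_left N 2) w) = 1 := by
  obtain ⟨e, m, hm, hN⟩ := Nat.exists_eq_two_pow_mul_odd (NeZero.ne N)
  have hN' : N = m * 2 ^ e := by rw [hN, mul_comm]
  have hcop : m.Coprime (2 ^ e) := (Nat.Coprime.pow_right e hm.coprime_two_right)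
  have hd : 2 ^ e ∣ N := ⟨m, hN⟩
  set u := ZMod.unitsMap (dvd_mul_left N 2) w with hu
  have hu2 : u ^ 2 = 1 := by rw [hu, ← map_pow, hw, map_one]
  have hmain : ∀ v : (ZMod N)ˣ, v ^ 2 = 1 → ZMod.castHom hd (ZMod (2 ^ e)) (v : ZMod N) = 1 →
      δ v = 1 := fun v hv hv' => chi_odd_part hfl h m (2 ^ e) hN' hcop hm hd v hv hv'
  -- `δ (-1) = 1`
  have hneg : δ (-1) = 1 := by
    have h1 : cyc N complexConjugation = -1 := Units.ext (by
      rw [cyc_complexConjugation]; simp)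
    rw [← h1, ← h, ← map_pow, sq, complexConjugation_mul_self, map_one]
  -- the integer `w`
  set x : ℤ := ((w : ZMod (2 * N)).val : ℤ) with hx
  have hxw : (x : ZMod (2 * N)) = w := by
    rw [hx, Int.cast_natCast, ZMod.natCast_zmod_val]
  have hxu : (x : ZMod N) = u := by
    have h1 : (u : ZMod N) = ZMod.castHom (dvd_mul_left N 2) (ZMod N) (w : ZMod (2 * N)) := by
      rw [hu, ZMod.unitsMap_val]; rfl
    rw [h1, ← hxw, map_intCast]
  have hx2 : ((2 * N : ℕ) : ℤ) ∣ x ^ 2 - 1 := by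
    rw [← ZMod.intCast_zmod_eq_zero_iff_dvd]
    push_cast
    have h1 : (x : ZMod (2 * N)) ^ 2 = 1 := by
      rw [hxw, ← Units.val_pow_eq_pow_val, hw, Units.val_one]
    have h2 : ((x ^ 2 - 1 : ℤ) : ZMod (2 * N)) = 0 := by push_cast; rw [h1, sub_self]
    simpa using h2
  have hdiv : (2 : ℤ) ^ (e + 1) ∣ x ^ 2 - 1 := by
    refine dvd_trans ?_ hx2
    rw [hN]
    push_cast
    exact ⟨m, by ring⟩
  have hcase : (2 : ℤ) ^ e ∣ x - 1 ∨ (2 : ℤ) ^ e ∣ x + 1 := by
    rcases Nat.eq_zero_or_pos e with he | he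
    · left; rw [he, pow_zero]; exact one_dvd _
    have hodd : Odd x := by
      rw [← Int.not_even_iff_odd]
      intro hev
      have h1 : (2 : ℤ) ∣ x ^ 2 - 1 := dvd_trans (dvd_pow_self 2 (Nat.succ_ne_zero e)) hdiv
      obtain ⟨t, ht⟩ := hev
      obtain ⟨r, hr⟩ := h1
      rw [ht] at hr
      have h2 : (2 : ℤ) * (2 * t * t - r) * 1 = 1 := by nlinarith
      omega
    obtain ⟨t, ht⟩ := hodd
    -- `x ^ 2 - 1 = 4 t (t + 1)`
    have h1 : x ^ 2 - 1 = 4 * (t * (t + 1)) := by rw [ht]; ring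
    obtain ⟨f, rfl⟩ : ∃ f, e = f + 1 := ⟨e - 1, by omega⟩
    have h2 : (2 : ℤ) ^ f ∣ t * (t + 1) := by
      obtain ⟨r, hr⟩ := hdiv
      rw [h1] at hr
      refine ⟨r, ?_⟩
      have h3 : (4 : ℤ) * (t * (t + 1)) = 4 * (2 ^ f * r) := by rw [hr]; ring
      exact mul_left_cancel₀ (by norm_num) h3
    rcases Int.even_or_odd t with hev | hod
    · left
      have hc : IsCoprime ((2 : ℤ) ^ f) (t + 1) := by
        apply IsCoprime.pow_left
        obtain ⟨r, hr⟩ := hev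
        exact ⟨-r, 1, by rw [hr]; ring⟩
      obtain ⟨r, hr⟩ := hc.dvd_of_dvd_mul_right h2
      exact ⟨r, by rw [ht, hr]; ring⟩
    · right
      have hc : IsCoprime ((2 : ℤ) ^ f) t := by
        apply IsCoprime.pow_left
        obtain ⟨r, hr⟩ := hod
        exact ⟨-r, 1, by rw [hr]; ring⟩
      obtain ⟨r, hr⟩ := hc.dvd_of_dvd_mul_left h2
      exact ⟨r, by rw [ht]; linear_combination 2 * hr⟩
  have hcast : ∀ y : ℤ, (2 : ℤ) ^ e ∣ y - 1 →
      ZMod.castHom hd (ZMod (2 ^ e)) ((y : ℤ) : ZMod N) = 1 := by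
    intro y hy
    rw [map_intCast]
    have h1 : ((y - 1 : ℤ) : ZMod (2 ^ e)) = 0 :=
      (ZMod.intCast_zmod_eq_zero_iff_dvd _ _).mpr (by exact_mod_cast hy)
    push_cast at h1
    exact sub_eq_zero.mp h1
  rcases hcase with h1 | h1
  · refine hmain u hu2 ?_
    rw [← hxu]
    exact hcast x h1
  · have h2 : δ (-u) = 1 := by
      refine hmain (-u) (by rw [neg_sq, hu2]) ?_
      have h3 : ((-u : (ZMod N)ˣ) : ZMod N) = ((-x : ℤ) : ZMod N) := by
        rw [Units.val_neg, ← hxu, Int.cast_neg]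
      rw [h3]
      apply hcast
      rw [show -x - 1 = -(x + 1) by ring]
      exact (dvd_neg).mpr h1
    have h3 : u = (-1) * (-u) := by simp
    rw [h3, map_mul, hneg, h2, one_mul]

/-- characters killing the involutions are squares -/
theorem exists_sqrt_char {A : Type*} [CommGroup A] [Finite A] (χ : A →* ℂˣ)
    (h : ∀ w : A, w ^ 2 = 1 → χ w = 1) : ∃ θ : A →* ℂˣ, ∀ w, θ w ^ 2 = χ w := by
  let s : A →* A := powMonoidHom 2
  let χ' : s.range →* ℂˣ := (s.rangeRestrict).liftOfSurjective s.rangeRestrict_surjective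
    ⟨χ, fun w hw => h w (congrArg Subtype.val hw)⟩
  have hχ' : ∀ w, χ' (s.rangeRestrict w) = χ w := fun w =>
    MonoidHom.liftOfRightInverse_comp_apply _ _ _ _ w
  have : NeZero (Monoid.exponent A) := ⟨Monoid.exponent_ne_zero_of_finite⟩
  obtain ⟨θ, hθ⟩ := MonoidHom.domRestrict_surjective (M := ℂ) s.range χ'
  refine ⟨θ, fun w => ?_⟩
  have h1 := DFunLike.congr_fun hθ (s.rangeRestrict w)
  rw [hχ'] at h1
  rw [← map_pow]
  exact h1

end Main

/-- **Kronecker-Weber for square roots of Dirichlet characters.** -/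
theorem exists_dirichlet {η : Γℚ →* ℂˣ} (hfl : GaloisFactorsThroughFiniteLevel η) {N : ℕ} [NeZero N]
    {δ : (ZMod N)ˣ →* ℂˣ} (h : ∀ σ, η σ ^ 2 = δ (cyc N σ)) :
    ∃ (N' : ℕ) (_ : NeZero N') (θ : (ZMod N')ˣ →* ℂˣ), ∀ σ, η σ = θ (cyc N' σ) := by
  have : NeZero (2 * N) := ⟨mul_ne_zero two_ne_zero (NeZero.ne N)⟩
  obtain ⟨θ, hθ⟩ := exists_sqrt_char (δ.comp (ZMod.unitsMap (dvd_mul_left N 2)))
    (fun w hw => chi_involution hfl h w hw)
  let ψ : Γℚ →* ℂˣ := η * (θ.comp (cyc (2 * N)))⁻¹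
  have hψ : ∀ σ, ψ σ = η σ * (θ (cyc (2 * N) σ))⁻¹ := fun σ => rfl
  have hfl' : GaloisFactorsThroughFiniteLevel ψ := by
    obtain ⟨L, hL, hL'⟩ := RepTwo.GaloisFactors_prod hfl (cyc_finite_level (2 * N))
    refine ⟨L, hL, fun σ hσ => ?_⟩
    have h1 := hL' σ hσ
    have h2 : η σ = 1 := congrArg Prod.fst h1
    have h3 : cyc (2 * N) σ = 1 := congrArg Prod.snd h1
    rw [hψ, h2, h3, map_one, inv_one, one_mul]
  have hψ2 : ∀ σ, ψ σ ^ 2 = 1 := by
    intro σ
    rw [hψ, mul_pow, inv_pow, h, hθ, MonoidHom.comp_apply, cyc_dvd, mul_inv_cancel]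
  obtain ⟨N2, hN2, hfix⟩ := exists_fixMu_of_sq ψ hfl' hψ2
  have : NeZero N2 := ⟨hN2⟩
  obtain ⟨θ2, hθ2⟩ := exists_lift_cyc ψ hfix
  have : NeZero (2 * N * N2) := ⟨mul_ne_zero (NeZero.ne _) hN2⟩
  refine ⟨2 * N * N2, inferInstance, (θ.comp (ZMod.unitsMap (dvd_mul_right _ _))) *
    (θ2.comp (ZMod.unitsMap (dvd_mul_left _ _))), fun σ => ?_⟩
  rw [MonoidHom.mul_apply, MonoidHom.comp_apply, MonoidHom.comp_apply, cyc_dvd, cyc_dvd, hθ2, hψ]
  rw [mul_comm (η σ), mul_inv_cancel_left]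

end Fermat.Agent.LTEnd
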