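import Fermat.Agent.LTEnd.Alg

/-!
# The ring `ℤ[√-2]` and the lift `Ψ`
-/

set_option autoImplicit false

noncomputable section

namespace Fermat.Agent.LTEnd

open Matrix FLT.ExplicitLift EisensteinWeightOne

local notation "G3" => GL (Fin 2) (ZMod 3)
local notation "M3" => Matrix (Fin 2) (Fin 2) (ZMod 3)
local notation "MZ" => Matrix (Fin 2) (Fin 2) (ℤ√(-2))
local notation "M2" => Matrix (Fin 2) (Fin 2) ℂ

theorem iota_injective (ι : ℤ√(-2) →+* ℂ) : Function.Injective ι := by
  rw [injective_iff_map_eq_zero]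
  intro z hz
  have h1 : ι ((z.norm : ℤ) : ℤ√(-2)) = 0 := by
    rw [Zsqrtd.norm_eq_mul_conj, map_mul, hz, zero_mul]
  rw [map_intCast] at h1
  have h2 : z.norm = 0 := by exact_mod_cast h1
  rw [Zsqrtd.norm_def] at h2
  have h3 : z.re * z.re + 2 * (z.im * z.im) = 0 := by linarith
  have h4 : z.re = 0 := by nlinarith [mul_self_nonneg z.re, mul_self_nonneg z.im]
  have h5 : z.im = 0 := by nlinarith [mul_self_nonneg z.re, mul_self_nonneg z.im]
  exact Zsqrtd.ext h4 h5

theorem unit_eq {u : ℤ√(-2)} (hu : IsUnit u) : u = 1 ∨ u = -1 := by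
  have h1 := Zsqrtd.norm_eq_one_iff.mpr hu
  have h2 : u.norm = u.re * u.re + 2 * (u.im * u.im) := by rw [Zsqrtd.norm_def]; ring
  have h3 : 0 ≤ u.norm := by
    rw [h2]; nlinarith [mul_self_nonneg u.re, mul_self_nonneg u.im]
  have h4 : u.norm = 1 := by omega
  rw [h2] at h4
  have h5 : u.im = 0 := by
    by_contra hne
    have := Int.one_le_abs hne
    have h6 : 1 ≤ u.im * u.im := by
      have h7 : |u.im| * |u.im| = u.im * u.im := abs_mul_abs_self _
      nlinarith
    nlinarith [mul_self_nonneg u.re]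
  rw [h5] at h4
  have h6 : u.re * u.re = 1 := by linarith
  rcases mul_self_eq_one_iff.mp h6 with h | h
  · left; exact Zsqrtd.ext h h5
  · right; exact Zsqrtd.ext (by simpa using h) (by simpa using h5)

section Psi

variable {Ψ : G3 →* GL (Fin 2) (ℤ√(-2))}
  (hΨ : ∀ g, Matrix.GeneralLinearGroup.map red (Ψ g) = g)

include hΨ in
theorem map_red (g : G3) : (Ψ g : MZ).map red = (g : M3) := by
  have h1 := congrArg (Units.val : G3 → M3) (hΨ g)
  exact h1

include hΨ in
theorem red_det (g : G3) : red (Ψ g : MZ).det = (g : M3).det := by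
  rw [← map_red hΨ g]
  exact RingHom.map_det red _

include hΨ in
theorem det_lift_one (g : G3) (h : (g : M3).det = 1) : (Ψ g : MZ).det = 1 := by
  have hu : IsUnit (Ψ g : MZ).det := (Matrix.GeneralLinearGroup.det (Ψ g)).isUnit
  rcases unit_eq hu with h1 | h1
  · exact h1
  · exfalso
    have h2 := red_det hΨ g
    rw [h1, h, map_neg, map_one] at h2
    exact absurd h2 (by decide)

include hΨ in
theorem det_lift_neg_one (g : G3) (h : (g : M3).det = -1) : (Ψ g : MZ).det = -1 := by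
  have hu : IsUnit (Ψ g : MZ).det := (Matrix.GeneralLinearGroup.det (Ψ g)).isUnit
  rcases unit_eq hu with h1 | h1
  · exfalso
    have h2 := red_det hΨ g
    rw [h1, h, map_one] at h2
    exact absurd h2 (by decide)
  · exact h1

include hΨ in
theorem det_lift (g : G3) {p : ℕ} (hp : p.Prime) (hp3 : p ≠ 3) (h : (g : M3).det = (p : ZMod 3)) :
    (Ψ g : MZ).det = ((chiNegThree p : ℤ) : ℤ√(-2)) := by
  have h3 : p % 3 ≠ 0 := fun h0 => hp3 ((Nat.prime_dvd_prime_iff_eq Nat.prime_three hp).mp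
    (Nat.dvd_of_mod_eq_zero h0)).symm
  have hcast : (p : ZMod 3) = ((p % 3 : ℕ) : ZMod 3) := (ZMod.natCast_mod p 3).symm
  have hlt : p % 3 < 3 := Nat.mod_lt _ (by norm_num)
  rcases (by omega : p % 3 = 1 ∨ p % 3 = 2) with h1 | h1
  · rw [chiNegThree, if_pos h1, Int.cast_one]
    refine det_lift_one hΨ g ?_
    rw [h, hcast, h1, Nat.cast_one]
  · rw [chiNegThree, if_neg (by omega), if_pos h1, Int.cast_neg, Int.cast_one]
    refine det_lift_neg_one hΨ g ?_
    rw [h, hcast, h1]
    decide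

variable (ι : ℤ√(-2) →+* ℂ)

include hΨ in
theorem iota_lift_neg_one : ((Ψ (-1) : MZ).map ι) = (-1 : M2) := by
  set X : M2 := (Ψ (-1) : MZ).map ι with hX
  have hXX : X * X = 1 := by
    rw [hX, ← Matrix.map_mul, ← Units.val_mul, ← map_mul]
    simp
  have hdet : (X - 1).det ≠ 0 := by
    have h1 : X - 1 = ((Ψ (-1) : MZ) - 1).map ι := by
      rw [Matrix.map_sub _ (map_sub ι), Matrix.map_one _ (map_zero ι) (map_one ι)]
    rw [h1]
    have h2 : (((Ψ (-1) : MZ) - 1).map ι).det = ι ((Ψ (-1) : MZ) - 1).det :=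
      (RingHom.map_det ι _).symm
    rw [h2, Ne, map_eq_zero_iff ι (iota_injective ι)]
    intro h3
    have h4 := congrArg red h3
    have h5 : red ((Ψ (-1) : MZ) - 1).det = (((Ψ (-1) : MZ) - 1).map red).det :=
      RingHom.map_det red _
    rw [h5, Matrix.map_sub _ (map_sub red), Matrix.map_one _ (map_zero red) (map_one red),
      map_red hΨ, map_zero] at h4
    simp [Matrix.det_fin_two] at h4
    exact absurd h4 (by decide)
  have h1 : (X - 1) * (X + 1) = 0 := by
    rw [mul_add, sub_mul, sub_mul, mul_one, mul_one, one_mul, hXX]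
    abel
  have h2 : (X - 1).adjugate * ((X - 1) * (X + 1)) = 0 := by rw [h1, mul_zero]
  rw [← mul_assoc, Matrix.adjugate_mul, smul_mul_assoc, one_mul] at h2
  have h3 := (smul_eq_zero.mp h2).resolve_left hdet
  exact eq_neg_of_add_eq_zero_left h3

/-- the complex lift of a representation into `GL₂(𝔽₃)` -/
def lift2 (Ψ : G3 →* GL (Fin 2) (ℤ√(-2))) : G3 →* GL (Fin 2) ℂ :=
  (Matrix.GeneralLinearGroup.map ι).comp Ψ

theorem lift2_val (g : G3) : (lift2 ι Ψ g : M2) = (Ψ g : MZ).map ι := rfl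

theorem lift2_trace (g : G3) : (lift2 ι Ψ g : M2).trace = ι (Ψ g : MZ).trace := by
  rw [lift2_val, Matrix.trace_fin_two, Matrix.trace_fin_two, map_add]
  rfl

theorem lift2_det (g : G3) : (lift2 ι Ψ g : M2).det = ι (Ψ g : MZ).det :=
  (RingHom.map_det ι _).symm

include hΨ in
theorem lift2_anticomm {h h' : G3} (hh : (h : M3) * (h' : M3) = -((h' : M3) * (h : M3))) :
    (lift2 ι Ψ h : M2) * (lift2 ι Ψ h' : M2) = -((lift2 ι Ψ h' : M2) * (lift2 ι Ψ h : M2)) := by
  have h1 : h * h' = (-1) * (h' * h) := by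
    apply Units.ext
    simp [hh]
  rw [← Units.val_mul, ← map_mul, h1, map_mul, Units.val_mul, lift2_val,
    iota_lift_neg_one hΨ, neg_one_mul, map_mul, Units.val_mul]

end Psi

end Fermat.Agent.LTEnd
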