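import Fermat.Agent.S48
import Fermat.Agent.LTEnd.Eig
import Fermat.Agent.LTEnd.Clifford
import Fermat.Agent.LTEnd.KW
import Fermat.Agent.LTEnd.ZSqrt
import Fermat.Agent.ChebFull.Places

/-!
# The Galois representation of a partial eigenform of weight one
-/

set_option autoImplicit false

noncomputable section

namespace Fermat.Agent.LTEnd

open Matrix FLT.ExplicitLift EisensteinWeightOne CongruenceSubgroup ModularFormClass
open Fermat.Agent.Neb Fermat.Agent.DS Fermat.Agent.IntStr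
open scoped MatrixGroups

local notation "Qb" => AlgebraicClosure ℚ
local notation "Γℚ" => (AlgebraicClosure ℚ ≃ₐ[ℚ] AlgebraicClosure ℚ)
local notation "G3" => GL (Fin 2) (ZMod 3)
local notation "M3" => Matrix (Fin 2) (Fin 2) (ZMod 3)
local notation "MZ" => Matrix (Fin 2) (Fin 2) (ℤ√(-2))
local notation "M2" => Matrix (Fin 2) (Fin 2) ℂ

theorem finiteLevel_of_nhds {G : Type} [Group G] (π : Γℚ →* G)
    (h : ((π.ker : Subgroup Γℚ) : Set Γℚ) ∈ nhds 1) : GaloisFactorsThroughFiniteLevel π := by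
  obtain ⟨E, hE, hE'⟩ := (krullTopology_mem_nhds_one_iff ℚ Qb _).mp h
  exact ⟨E, hE, fun σ hσ => hE' ((IntermediateField.mem_fixingSubgroup_iff _ _).2 hσ)⟩

theorem finiteLevel_of_continuous (ρ : Γℚ →* G3) (hρ : Continuous ρ) :
    GaloisFactorsThroughFiniteLevel ρ := by
  refine finiteLevel_of_nhds ρ ?_
  have h1 : IsOpen (ρ ⁻¹' {1}) := (isOpen_discrete _).preimage hρ
  exact h1.mem_nhds (by simp)

theorem finiteLevel_mk (U : Subgroup Γℚ) [U.Normal] (hU : IsOpen (U : Set Γℚ)) :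
    GaloisFactorsThroughFiniteLevel (QuotientGroup.mk' U) := by
  refine finiteLevel_of_nhds _ ?_
  rw [QuotientGroup.ker_mk']
  exact hU.mem_nhds (one_mem U)

/-- **Part B**: the weight one form gives a twist of `Ψ ∘ ρ`. -/
theorem exists_eigOne_twist
    (ρ : Γℚ →* G3) (hρ : Continuous ρ) (hsurj : Function.Surjective ρ)
    (Ψ : G3 →* GL (Fin 2) (ℤ√(-2)))
    (hΨ : ∀ g, Matrix.GeneralLinearGroup.map red (Ψ g) = g) (ι : ℤ√(-2) →+* ℂ)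
    (U : Subgroup Γℚ) [hUn : U.Normal] (hU : IsOpen (U : Set Γℚ))
    (hUρ : ∃ σ ∈ U, ρ σ ≠ 1 ∧ ρ σ ≠ -1)
    {M : ℕ} [NeZero M] (f : CuspForm (Gamma1 M) 1) (hf : f ≠ 0) (B : ℕ)
    (hT : ∀ ℓ : ℕ, ℓ.Prime → B < ℓ → (ℓ : ZMod M) = 1 → ∀ A : ValuationSubring Qb,
      A.LiesOverPrime ℓ → ∀ φ ∈ U, A.IsFrobeniusAt φ ℓ → ∀ n : ℕ,
      qCoeff f (ℓ * n) + (if ℓ ∣ n then qCoeff f (n / ℓ) else 0) =
        ι (Ψ (ρ φ) : MZ).trace * qCoeff f n) :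
    ∃ (M' : ℕ) (_ : NeZero M') (e : DirichletCharacter ℂ M') (g : UpperHalfPlane → ℂ)
      (η : Γℚ →* ℂˣ), EigOne M' e g ∧ GaloisFactorsThroughFiniteLevel η ∧
      (∀ p : ℕ, p.Prime → ¬ p ∣ M' → ∀ A : ValuationSubring Qb, A.LiesOverPrime p →
        ∀ σ : Γℚ, A.IsFrobeniusAt σ p → co g p = (η σ : ℂ) * ι (Ψ (ρ σ) : MZ).trace) ∧
      (∀ σ : Γℚ, e ((cyc M' σ : (ZMod M')ˣ) : ZMod M') =
        (η σ : ℂ) ^ 2 * ι (Ψ (ρ σ) : MZ).det) := by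
  classical
  have : NeZero (3 * M) := ⟨mul_ne_zero (by norm_num) (NeZero.ne M)⟩
  have hM3 : 3 ≤ 3 * M := Nat.le_mul_of_pos_right 3 (NeZero.pos M)
  have hMd : M ∣ 3 * M := dvd_mul_left M 3
  have hcf0 : IsCF (Gamma1 M) 1 (f : UpperHalfPlane → ℂ) := IsCF.of_cuspForm f
  have hcf : IsCF (Gamma1 (3 * M)) 1 (f : UpperHalfPlane → ℂ) :=
    IsCF.mono' (Gamma1_mono hMd) hcf0
  have hf0 : (f : UpperHalfPlane → ℂ) ≠ 0 := fun h0 => hf (DFunLike.coe_injective h0)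
  -- a nonzero coefficient
  obtain ⟨n0, hn0⟩ : ∃ n, co (f : UpperHalfPlane → ℂ) n ≠ 0 := by
    by_contra hcon
    push Not at hcon
    exact hf0 (hcf0.toIsMF.eq_zero_of_qExpansion (T_mem_Gamma1 M) (PowerSeries.ext fun n => by
      rw [map_zero]; exact hcon n))
  -- the set of primes
  let P : ℕ → Prop := fun ℓ => ∃ (A : ValuationSubring Qb) (φ : Γℚ), A.LiesOverPrime ℓ ∧ φ ∈ U ∧
    A.IsFrobeniusAt φ ℓ
  let S : Set ℕ := {ℓ | ℓ.Prime ∧ B < ℓ ∧ (ℓ : ZMod (3 * M)) = 1 ∧ P ℓ}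
  let lam : ℕ → ℂ := fun ℓ => if h : P ℓ then ι (Ψ (ρ h.choose_spec.choose) : MZ).trace else 0
  have hmod : ∀ ℓ : ℕ, (ℓ : ZMod (3 * M)) = 1 → (ℓ : ZMod M) = 1 := by
    intro ℓ h
    have := congrArg (ZMod.castHom hMd (ZMod M)) h
    rwa [map_natCast, map_one] at this
  have hrel : ∀ ℓ ∈ S, ∀ n, co f (ℓ * n) + (if ℓ ∣ n then co f (n / ℓ) else 0) =
      lam ℓ * co f n := by
    rintro ℓ ⟨hℓ, hB, h1, hP⟩ n
    have hl : lam ℓ = ι (Ψ (ρ hP.choose_spec.choose) : MZ).trace := dif_pos hP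
    obtain ⟨hA, hφU, hφ⟩ := hP.choose_spec.choose_spec
    rw [hl]
    exact hT ℓ hℓ hB (hmod ℓ h1) _ hA _ hφU hφ n
  obtain ⟨M', hM'0, e, g, hdvd, hg, hgS⟩ := exists_eigOne hM3 hcf hf0 S
    (fun ℓ hℓ => ⟨hℓ.1, hℓ.2.2.1⟩) lam hrel
  -- the Galois representation
  obtain ⟨r1, hr1, -, hr1p⟩ := Fermat.Agent.S48.result M' e hg.cf.toCuspForm hg.one hg.rel
  let r2 : Γℚ →* GL (Fin 2) ℂ := (lift2 ι Ψ).comp ρ
  have hρf := finiteLevel_of_continuous ρ hρ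
  have h3M' : 3 * M ≠ 0 := NeZero.ne _
  -- Chebotarev
  let π := ((r1.prod ρ).prod ((cyc (3 * M)).prod (cyc M'))).prod (QuotientGroup.mk' U)
  have hπ : GaloisFactorsThroughFiniteLevel π := RepTwo.GaloisFactors_prod
    (RepTwo.GaloisFactors_prod (RepTwo.GaloisFactors_prod hr1 hρf)
      (RepTwo.GaloisFactors_prod (cyc_finite_level _) (cyc_finite_level _))) (finiteLevel_mk U hU)
  have hcheb : ∀ σ : Γℚ, ∃ ℓ : ℕ, ℓ.Prime ∧ B < ℓ ∧ ¬ ℓ ∣ 3 * M ∧ ¬ ℓ ∣ M' ∧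
      ∃ A : ValuationSubring Qb, A.LiesOverPrime ℓ ∧ ∃ φ : Γℚ, A.IsFrobeniusAt φ ℓ ∧
        r1 φ = r1 σ ∧ ρ φ = ρ σ ∧ cyc (3 * M) φ = cyc (3 * M) σ ∧ cyc M' φ = cyc M' σ ∧
        (QuotientGroup.mk' U φ = QuotientGroup.mk' U σ) := by
    intro σ
    obtain ⟨ℓ, hℓ, hℓS, -, A, hA, φ, hφ, hφσ⟩ := ChebFull.exists_frobenius_eq_of_factors π hπ σ
      (Finset.range (B + 1) ∪ (3 * M).primeFactors ∪ M'.primeFactors)
    rw [Finset.mem_union, Finset.mem_union, not_or, not_or, Finset.mem_range,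
      Nat.mem_primeFactors, Nat.mem_primeFactors] at hℓS
    refine ⟨ℓ, hℓ, by omega, fun h0 => hℓS.1.2 ⟨hℓ, h0, h3M'⟩,
      fun h0 => hℓS.2 ⟨hℓ, h0, NeZero.ne M'⟩, A, hA, φ, hφ, ?_, ?_, ?_, ?_, ?_⟩
    · exact congrArg (fun z => z.1.1.1) hφσ
    · exact congrArg (fun z => z.1.1.2) hφσ
    · exact congrArg (fun z => z.1.2.1) hφσ
    · exact congrArg (fun z => z.1.2.2) hφσ
    · exact congrArg (fun z => z.2) hφσ
  -- the normal subgroup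
  let U' : Subgroup Γℚ := U ⊓ (cyc (3 * M)).ker
  have hU'n : U'.Normal := Subgroup.normal_inf_normal _ _
  have htr : ∀ u ∈ U', (r1 u : M2).trace = (r2 u : M2).trace := by
    rintro σ ⟨hσU, hσc⟩
    obtain ⟨ℓ, hℓ, hB, hℓM, hℓM', A, hA, φ, hφ, e1, e2, e3, -, e5⟩ := hcheb σ
    have hφU : φ ∈ U := by
      rw [← QuotientGroup.eq_one_iff]
      change QuotientGroup.mk' U φ = 1
      rw [e5]
      exact (QuotientGroup.eq_one_iff σ).mpr hσU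
    have h1 : (ℓ : ZMod (3 * M)) = 1 := by
      rw [← cyc_frobenius (3 * M) hℓ hℓM hA hφ, e3, MonoidHom.mem_ker.mp hσc, Units.val_one]
    have hPℓ : P ℓ := ⟨A, φ, hA, hφU, hφ⟩
    have h2 := hgS ℓ ⟨hℓ, hB, h1, hPℓ⟩ hℓM'
    have h3 : lam ℓ = ι (Ψ (ρ φ) : MZ).trace := by
      have h4 := hrel ℓ ⟨hℓ, hB, h1, hPℓ⟩ n0
      have h5 := hT ℓ hℓ hB (hmod ℓ h1) A hA φ hφU hφ n0
      change co f (ℓ * n0) + (if ℓ ∣ n0 then co f (n0 / ℓ) else 0) =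
        ι (Ψ (ρ φ) : MZ).trace * co f n0 at h5
      rw [h5] at h4
      exact (mul_right_cancel₀ hn0 h4).symm
    have h4 := ((hr1p ℓ hℓ hℓM' A hA).2 φ hφ).1
    change (r1 σ : M2).trace = (lift2 ι Ψ (ρ σ) : M2).trace
    rw [lift2_trace, ← e2, ← h3, ← h2, ← e1, h4]
    rfl
  -- anticommuting elements
  obtain ⟨σ0, hσ0, hne1, hne2⟩ := hUρ
  obtain ⟨x, hx⟩ := exists_comm_trace_zero (ρ σ0) hne1 hne2
  obtain ⟨x', hx'⟩ := hsurj x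
  set h := σ0 * x' * σ0⁻¹ * x'⁻¹ with hh
  have hρh : ρ h = ρ σ0 * x * (ρ σ0)⁻¹ * x⁻¹ := by
    rw [hh, map_mul, map_mul, map_mul, map_inv, map_inv, hx']
  have hhU : h ∈ U' := by
    refine ⟨?_, ?_⟩
    · have h1 : h = σ0 * (x' * σ0⁻¹ * x'⁻¹) := by rw [hh]; group
      rw [h1]
      exact mul_mem hσ0 (hUn.conj_mem _ (inv_mem hσ0) x')
    · change cyc (3 * M) h = 1
      rw [hh, map_mul, map_mul, map_mul, map_inv, map_inv, mul_inv_cancel_comm, mul_inv_cancel]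
  have hdet1 : (ρ h : M3).det = 1 := by
    have h1 : Matrix.GeneralLinearGroup.det (ρ h) = 1 := by
      rw [hρh, map_mul, map_mul, map_mul, map_inv, map_inv, mul_inv_cancel_comm, mul_inv_cancel]
    exact congrArg Units.val h1
  obtain ⟨t, ht⟩ := exists_anticomm (ρ h) hdet1 (by rw [hρh]; exact hx)
  obtain ⟨t', ht'⟩ := hsurj t
  have hh'U : t' * h * t'⁻¹ ∈ U' := hU'n.conj_mem _ hhU t'
  have hρh' : ρ (t' * h * t'⁻¹) = t * ρ h * t⁻¹ := by rw [map_mul, map_mul, map_inv, ht']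
  obtain ⟨η, hη1, hη2, hη3⟩ := exists_twist U' r1 r2 htr hhU hh'U (by
    change (lift2 ι Ψ (ρ h) : M2) * (lift2 ι Ψ (ρ (t' * h * t'⁻¹)) : M2) =
      -((lift2 ι Ψ (ρ (t' * h * t'⁻¹)) : M2) * (lift2 ι Ψ (ρ h) : M2))
    rw [hρh']
    exact lift2_anticomm hΨ ι ht)
  refine ⟨M', hM'0, e, g, η, hg, ?_, ?_, ?_⟩
  · obtain ⟨L, hL, hL'⟩ := RepTwo.GaloisFactors_prod hr1 hρf
    refine ⟨L, hL, fun σ hσ => hη3 σ ?_ ?_⟩
    · exact congrArg Prod.fst (hL' σ hσ)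
    · change lift2 ι Ψ (ρ σ) = 1
      rw [show ρ σ = 1 from congrArg Prod.snd (hL' σ hσ), map_one]
  · intro p hp hpM' A hA σ hσ
    have h1 := ((hr1p p hp hpM' A hA).2 σ hσ).1
    have h2 := hη1 σ
    rw [h1] at h2
    change co g p = (η σ : ℂ) * (lift2 ι Ψ (ρ σ) : M2).trace at h2
    rw [lift2_trace] at h2
    exact h2
  · intro σ
    obtain ⟨ℓ, hℓ, hB, hℓM, hℓM', A, hA, φ, hφ, e1, e2, e3, e4, e5⟩ := hcheb σ
    have h1 := ((hr1p ℓ hℓ hℓM' A hA).2 φ hφ).2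
    have h2 := hη2 σ
    change (r1 σ : M2).det = (η σ : ℂ) ^ 2 * (lift2 ι Ψ (ρ σ) : M2).det at h2
    rw [lift2_det] at h2
    rw [← h2, ← e1, h1, ← e4, cyc_frobenius M' hℓ hℓM' hA hφ]

end Fermat.Agent.LTEnd
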