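import Mathlib

/-!
# Square roots of rational numbers are cyclotomic
-/

set_option autoImplicit false

noncomputable section

namespace Fermat.Agent.LTEnd

local notation "Qb" => AlgebraicClosure ℚ
local notation "Γℚ" => (AlgebraicClosure ℚ ≃ₐ[ℚ] AlgebraicClosure ℚ)

/-- `σ` fixes the `N`-th roots of unity -/
def FixMu (N : ℕ) (σ : Γℚ) : Prop := ∀ z : Qb, z ^ N = 1 → σ z = z

theorem FixMu.of_dvd {N M : ℕ} {σ : Γℚ} (h : FixMu N σ) (hd : M ∣ N) : FixMu M σ := by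
  intro z hz
  obtain ⟨t, rfl⟩ := hd
  exact h z (by rw [pow_mul, hz, one_pow])

theorem exists_sqrt (a : Qb) : ∃ y : Qb, y ^ 2 = a := by
  obtain ⟨y, hy⟩ := IsAlgClosed.exists_pow_nat_eq a (n := 2) (by norm_num)
  exact ⟨y, hy⟩

/-- `x` is fixed by the automorphisms fixing the `N`-th roots of unity -/
def CycN (N : ℕ) (x : Qb) : Prop := ∀ σ : Γℚ, FixMu N σ → σ x = x

theorem CycN.mul {N M : ℕ} {x y : Qb} (hx : CycN N x) (hy : CycN M y) : CycN (N * M) (x * y) := by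
  intro σ hσ
  rw [map_mul, hx σ (hσ.of_dvd (dvd_mul_right _ _)), hy σ (hσ.of_dvd (dvd_mul_left _ _))]

theorem cycN_of_pow {N : ℕ} {x : Qb} (h : x ^ N = 1) : CycN N x := fun _ hσ => hσ x h

theorem CycN.of_dvd {N M : ℕ} {x : Qb} (hx : CycN N x) (h : N ∣ M) : CycN M x :=
  fun σ hσ => hx σ (hσ.of_dvd h)

theorem cycN_sqrt_one {x : Qb} (h : x ^ 2 = 1) : CycN 2 x := cycN_of_pow h

theorem exists_cycN_sqrt_two : ∃ y : Qb, y ^ 2 = 2 ∧ CycN 8 y := by
  have : NeZero ((8 : ℕ) : Qb) := ⟨by norm_num⟩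
  obtain ⟨ζ, hζ⟩ := HasEnoughRootsOfUnity.exists_primitiveRoot Qb 8
  have h0 : ζ ≠ 0 := hζ.ne_zero (by norm_num)
  have h4 : ζ ^ 4 = -1 := by
    have h1 : (ζ ^ 4) ^ 2 = 1 := by rw [← pow_mul]; exact hζ.pow_eq_one
    have h2 : ζ ^ 4 ≠ 1 := hζ.pow_ne_one_of_pos_of_lt (by norm_num) (by norm_num)
    have h3 : (ζ ^ 4 - 1) * (ζ ^ 4 + 1) = 0 := by linear_combination h1
    exact eq_neg_of_add_eq_zero_left ((mul_eq_zero.mp h3).resolve_left (sub_ne_zero.mpr h2))
  refine ⟨ζ + ζ⁻¹, ?_, fun σ hσ => ?_⟩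
  · field_simp
    linear_combination h4
  · rw [map_add, map_inv₀, hσ ζ hζ.pow_eq_one]

theorem exists_cycN_sqrt_odd {p : ℕ} (hp : p.Prime) (hp2 : p ≠ 2) :
    ∃ y : Qb, (y ^ 2 = p ∨ y ^ 2 = -p) ∧ CycN p y := by
  have : Fact p.Prime := ⟨hp⟩
  have : NeZero ((p : ℕ) : Qb) := ⟨by exact_mod_cast hp.ne_zero⟩
  obtain ⟨ζ, hζ⟩ := HasEnoughRootsOfUnity.exists_primitiveRoot Qb p
  let χ : MulChar (ZMod p) Qb := (quadraticChar (ZMod p)).ringHomComp (Int.castRingHom Qb)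
  let ψ : AddChar (ZMod p) Qb := AddChar.zmodChar p ((IsPrimitiveRoot.iff_def ζ p).mp hζ).left
  have hψ : ψ.IsPrimitive := AddChar.zmodChar_primitive_of_primitive_root p hζ
  have hχ2 : χ.IsQuadratic := MulChar.IsQuadratic.comp (quadraticChar_isQuadratic (F := ZMod p)) _
  have hχ1 : χ ≠ 1 := by
    rw [Ne, MulChar.ringHomComp_eq_one_iff (Int.cast_injective (α := Qb))]
    exact quadraticChar_ne_one (by rwa [ZMod.ringChar_zmod_n])
  have h1 := gaussSum_sq hχ1 hχ2 hψ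
  rw [ZMod.card] at h1
  refine ⟨gaussSum χ ψ, ?_, fun σ hσ => ?_⟩
  · rcases hχ2 (-1) with h | h | h
    · exfalso
      have h2 : IsUnit (χ (-1)) := by
        have := (IsUnit.neg isUnit_one : IsUnit (-1 : ZMod p))
        exact this.map χ
      rw [h] at h2
      exact not_isUnit_zero h2
    · left; rw [h1, h, one_mul]
    · right; rw [h1, h]; ring
  · rw [gaussSum, map_sum]
    refine Finset.sum_congr rfl fun a _ => ?_
    rw [map_mul]
    congr 1
    · change σ ((quadraticChar (ZMod p) a : ℤ) : Qb) = ((quadraticChar (ZMod p) a : ℤ) : Qb)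
      rw [map_intCast]
    · change σ (AddChar.zmodChar p _ a) = AddChar.zmodChar p _ a
      rw [AddChar.zmodChar_apply]
      refine hσ _ ?_
      rw [← pow_mul, mul_comm, pow_mul, hζ.pow_eq_one, one_pow]

/-- square roots of natural numbers are cyclotomic -/
theorem exists_cycN_sqrt (n : ℕ) (hn : n ≠ 0) :
    ∃ N : ℕ, N ≠ 0 ∧ ∃ y : Qb, y ^ 2 = n ∧ CycN N y := by
  induction n using induction_on_primes with
  | zero => exact absurd rfl hn
  | one => exact ⟨1, one_ne_zero, 1, by simp, fun σ _ => map_one σ⟩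
  | prime_mul p a hp ih =>
    have ha : a ≠ 0 := by rintro rfl; exact hn (mul_zero p)
    obtain ⟨N, hN, y, hy, hyN⟩ := ih ha
    obtain ⟨M, hM, w, hw, hwM⟩ : ∃ M : ℕ, M ≠ 0 ∧ ∃ w : Qb, w ^ 2 = p ∧ CycN M w := by
      by_cases hp2 : p = 2
      · subst hp2
        obtain ⟨w, hw, h⟩ := exists_cycN_sqrt_two
        exact ⟨8, by norm_num, w, by rw [hw]; norm_num, h⟩
      · obtain ⟨w, hw | hw, h⟩ := exists_cycN_sqrt_odd hp hp2
        · exact ⟨p, hp.ne_zero, w, hw, h⟩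
        · obtain ⟨i, hi⟩ := exists_sqrt (-1)
          have hi4 : i ^ 4 = 1 := by
            have : i ^ 4 = (i ^ 2) ^ 2 := by ring
            rw [this, hi]; ring
          refine ⟨4 * p, mul_ne_zero (by norm_num) hp.ne_zero, i * w, ?_,
            (cycN_of_pow hi4).mul h⟩
          rw [mul_pow, hi, hw]; ring
    exact ⟨M * N, mul_ne_zero hM hN, w * y, by rw [mul_pow, hw, hy]; push_cast; ring, hwM.mul hyN⟩

/-- square roots of rational numbers are cyclotomic -/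
theorem exists_cycN_of_sq (x : Qb) (d : ℚ) (h : x ^ 2 = d) : ∃ N : ℕ, N ≠ 0 ∧ CycN N x := by
  by_cases hd : d = 0
  · rw [hd] at h
    have hx : x = 0 := by simpa using h
    exact ⟨1, one_ne_zero, fun σ _ => by rw [hx, map_zero]⟩
  -- integers
  set n : ℕ := (d.num * d.den).natAbs with hn
  have hden : (d.den : ℤ) ≠ 0 := by exact_mod_cast d.den_ne_zero
  have hn0 : n ≠ 0 := Int.natAbs_ne_zero.mpr (mul_ne_zero (Rat.num_ne_zero.mpr hd) hden)
  obtain ⟨N, hN, y, hy, hyN⟩ := exists_cycN_sqrt n hn0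
  have hy0 : y ≠ 0 := by
    rintro rfl
    apply hn0
    have : (n : Qb) = 0 := by rw [← hy]; ring
    exact_mod_cast this
  have hden' : (d.den : Qb) ≠ 0 := by exact_mod_cast d.den_ne_zero
  have h1 : (x * d.den) ^ 2 = ((d.num * d.den : ℤ) : Qb) := by
    rw [mul_pow, h]
    have h2 : (d : Qb) * d.den = d.num := by
      have := Rat.mul_den_eq_num d
      exact_mod_cast this
    push_cast
    rw [← h2]; ring
  have h3 : ((d.num * d.den : ℤ) : Qb) = n ∨ ((d.num * d.den : ℤ) : Qb) = -n := by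
    rcases Int.natAbs_eq (d.num * d.den) with h | h
    · left
      rw [← hn] at h
      rw [h, Int.cast_natCast]
    · right
      rw [← hn] at h
      rw [h, Int.cast_neg, Int.cast_natCast]
  have h4 : (x * d.den / y) ^ 4 = 1 := by
    have e : (x * d.den / y) ^ 4 = ((x * d.den) ^ 2 / y ^ 2) ^ 2 := by
      field_simp
    have hn' : (n : Qb) ≠ 0 := by exact_mod_cast hn0
    rw [e, h1, hy]
    rcases h3 with h | h <;> rw [h] <;> field_simp
  refine ⟨4 * N, mul_ne_zero (by norm_num) hN, fun σ hσ => ?_⟩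
  have h5 := ((cycN_of_pow h4).mul hyN) σ hσ
  rw [div_mul_cancel₀ _ hy0, map_mul, map_natCast] at h5
  exact mul_right_cancel₀ hden' h5

end Fermat.Agent.LTEnd
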